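import Fermat.Agent.S41.Hecke.Fam

/-!
# S41 / HECKE : (Z2) for `be1`    key [S41/H-Z2b]

`rw [IsFam.tr_comp, IsFam.tr_comp]`, then `IsFam.tr_eq_of_red` (`m = n = 1`; `Fintype.card_prod`, `mul_comm`).
LHS family `(i,s) ↦ matT ℓ i * r_s`, RHS family `(s,i) ↦ r_s * matT ℓ i`, groups `(C, A)`.  `tr_eq_of_red` with `A' = LHS`.
existence: `D := ((isFam_T N hℓ h).ex ⟨r_s, rA_mem ..⟩).some`: `matT ℓ i * r_s = δ_i * matT ℓ (σ i)`, `δ_i ∈ A`; `complete_b1`: `δ_i = δ' * r_t`.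
red: `matT ℓ i * r_s = ε * (matT ℓ j * r_t)`, `ε ∈ C`.  Bottom rows mod `q` (`(matT ℓ i) 1 0 = 0`, `d_i = (matT ℓ i) 1 1 ∈ {1, ℓ}` prime to `q`, `q ∣ ε 1 0`):
  `d_i (r_s 1 0, r_s 1 1) ≡ ε 1 1 d_j (r_t 1 0, r_t 1 1)`, hence `q ∣ d_i (r_s 1 0 * r_t 1 1 - r_s 1 1 * r_t 1 0)`, so `q ∣ (r_s r_t⁻¹) 1 0` (`hrep_mul_inv_10`); also `N ∣` it; coprime: `N q ∣` it; `rA_inj`: `s = t`.
  Cancel `r_s` (`mat_cancel_right`, `det_famB1`), `matT_red`.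
-/

set_option autoImplicit false

open CongruenceSubgroup ModularCurve.Period Fermat.Agent.S16.Lower Fermat.Agent.S29
open Fermat.Agent.S16.Lower.LDataAux
open scoped MatrixGroups

noncomputable section

namespace Fermat.Agent.S41.Hecke

variable {N q : ℕ} {R : Type} [AddCommGroup R]

theorem z2b_matT_10 (ℓ : ℕ) (i : Option (Fin ℓ)) : (matT ℓ i) 1 0 = 0 := by
  cases i <;> simp [matT, matD, matU]

theorem z2b_matT_11 (ℓ : ℕ) (i : Option (Fin ℓ)) : (matT ℓ i) 1 1 = 1 ∨ (matT ℓ i) 1 1 = ℓ := by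
  cases i <;> simp [matT, matD, matU]

theorem z2b_red (hq : q.Prime) (hqN : ¬ q ∣ N) {ℓ : ℕ} (hℓ : ℓ.Prime) (h' : ¬ ℓ ∣ N * q)
    (ε : Gamma0 (N * q)) (x y : Option (Fin ℓ) × Option (Fin q))
    (hxy : matT ℓ x.1 * famB1 N q x.2 = ((ε : SL(2, ℤ)) : M2) * (matT ℓ y.1 * famB1 N q y.2)) :
    x = y := by
  obtain ⟨i, s⟩ := x
  obtain ⟨j, t⟩ := y
  simp only at hxy
  have hε : ((N * q : ℕ) : ℤ) ∣ (ε : SL(2, ℤ)) 1 0 :=
    (ZMod.intCast_zmod_eq_zero_iff_dvd _ _).1 (Gamma0_mem.1 ε.2)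
  have h10 := congrFun (congrFun hxy 1) 0
  have h11 := congrFun (congrFun hxy 1) 1
  rw [Matrix.mul_apply, Fin.sum_univ_two, Matrix.mul_apply, Fin.sum_univ_two, z2b_matT_10,
    zero_mul, zero_add] at h10 h11
  have e10 : (matT ℓ j * famB1 N q t) 1 0 = (matT ℓ j) 1 1 * famB1 N q t 1 0 := by
    rw [Matrix.mul_apply, Fin.sum_univ_two, z2b_matT_10, zero_mul, zero_add]
  have e11 : (matT ℓ j * famB1 N q t) 1 1 = (matT ℓ j) 1 1 * famB1 N q t 1 1 := by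
    rw [Matrix.mul_apply, Fin.sum_univ_two, z2b_matT_10, zero_mul, zero_add]
  rw [e10] at h10
  rw [e11] at h11
  have key : (matT ℓ i) 1 1 * (famB1 N q s 1 0 * famB1 N q t 1 1 - famB1 N q s 1 1 * famB1 N q t 1 0)
      = (ε : SL(2, ℤ)) 1 0 * ((matT ℓ j * famB1 N q t) 0 0 * famB1 N q t 1 1 -
        (matT ℓ j * famB1 N q t) 0 1 * famB1 N q t 1 0) := by
    linear_combination (famB1 N q t 1 1) * h10 - (famB1 N q t 1 0) * h11
  have hd : ((N * q : ℕ) : ℤ) ∣ (matT ℓ i) 1 1 *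
      (famB1 N q s 1 0 * famB1 N q t 1 1 - famB1 N q s 1 1 * famB1 N q t 1 0) := by
    rw [key]
    exact Dvd.dvd.mul_right hε _
  have hcop : IsCoprime ((N * q : ℕ) : ℤ) ((matT ℓ i) 1 1) := by
    rcases z2b_matT_11 ℓ i with e | e
    · rw [e]; exact isCoprime_one_right
    · rw [e]
      exact (Nat.isCoprime_iff_coprime.mpr ((Nat.Prime.coprime_iff_not_dvd hℓ).mpr h')).symm
  have hd' := hcop.dvd_of_dvd_mul_left hd
  have hst : s = t := by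
    apply rA_inj hq hqN
    rw [Gamma0_mem, ZMod.intCast_zmod_eq_zero_iff_dvd, hrep_mul_inv_10]
    exact hd'
  subst hst
  have h2 : matT ℓ i = ((ε : SL(2, ℤ)) : M2) * matT ℓ j := by
    apply mat_cancel_right (B := famB1 N q s) (by rw [det_famB1]; exact one_ne_zero)
    rw [hxy, Matrix.mul_assoc]
  rw [matT_red hℓ _ i j h2]

/-- [S41/H-Z2b] -/
theorem b1_T (hq : q.Prime) (hqN : ¬ q ∣ N) {ℓ : ℕ} (hℓ : ℓ.Prime) (h : ¬ ℓ ∣ N) (h' : ¬ ℓ ∣ N * q)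
    (y : Additive (Gamma0 (N * q)) →+ R) :
    (isFam_b1 hq hqN).tr ((isFam_T (N * q) hℓ h').tr y) =
      (isFam_T N hℓ h).tr ((isFam_b1 hq hqN).tr y) := by
  rw [IsFam.tr_comp, IsFam.tr_comp]
  refine IsFam.tr_eq_of_red _ _ (z2b_red hq hqN hℓ h') ?_ (m := 1) (n := 1) one_ne_zero ?_ y
  · rw [Fintype.card_prod, Fintype.card_prod, mul_comm]
  · rintro ⟨i, s⟩
    obtain ⟨D⟩ := (isFam_T N hℓ h).ex ⟨rA N q s, rA_mem N q s⟩
    obtain ⟨t, δ', hδ'⟩ := complete_b1 hq hqN (D.δ i)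
    refine ⟨(t, D.σ i), δ', ?_⟩
    rw [one_smul, one_smul]
    show matT ℓ i * famB1 N q s = ((δ' : SL(2, ℤ)) : M2) * (famB1 N q t * matT ℓ (D.σ i))
    rw [← Matrix.mul_assoc, ← hδ']
    exact D.rel i

end Fermat.Agent.S41.Hecke
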