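import Fermat.Agent.S41.Hecke.Z1b

/-!
# S41 / HECKE : (Z2) for `be2`    key [S41/H-Z2c]

`rw [IsFam.tr_comp, IsFam.tr_comp]`, then `IsFam.tr_eq_of_red` (`m = n = 1`; `Fintype.card_prod`, `mul_comm`).
LHS family `(i,s) ↦ matT ℓ i * (D' r'_s)`, RHS `(s,i) ↦ (D' r'_s) * matT ℓ i`, `D' = matU q 0`, groups `(C, A)`; `A' = LHS`.
existence: `matT ℓ i * D' = D' * Y₀`, `Y₀ = [[a, q b],[0, d]]` for `matT ℓ i = [[a,b],[0,d]]`; `Y = Y₀ * r'_s` has `det = ℓ`, `N ∣ Y 1 0`: `complete_T hℓ N h`: `Y = g * matT ℓ k`, `g ∈ A`; `complete_b2`: `D' * g = δ * famB2 t`.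
red: `matT ℓ i * D' r'_s = ε * (matT ℓ j * D' r'_t)`.  Top rows mod `q`: with `a_i = (matT ℓ i) 0 0 ∈ {ℓ, 1}`, the top row of LHS is `≡ a_i (r'_s 0 0, r'_s 0 1)`
  [top row of `[[a,b],[0,d]] * [[x,y],[q z,q w]]` is `(a x + b q z, a y + b q w)`; the bottom row is `≡ 0`], top row of RHS `≡ ε 0 0 a_j (r'_t 0 0, r'_t 0 1)`;
  so `q ∣ a_i (r'_s 0 1 * r'_t 0 0 - r'_s 0 0 * r'_t 0 1)`, `hrep_mul_inv_01`, `hrep_mem_Cp`, `rB_inj`.  Cancel (`mat_cancel_right`, `det_famB2`), `matT_red`.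
-/

set_option autoImplicit false

open CongruenceSubgroup ModularCurve.Period Fermat.Agent.S16.Lower Fermat.Agent.S29
open Fermat.Agent.S16.Lower.LDataAux
open scoped MatrixGroups

noncomputable section

namespace Fermat.Agent.S41.Hecke

variable {N q : ℕ} {R : Type} [AddCommGroup R]

theorem z2c_shift {B B' E : M2} {r r' : SL(2, ℤ)} (h : B * (r : M2) = E * (B' * (r' : M2))) :
    B * ((r * r'⁻¹ : SL(2, ℤ)) : M2) = E * B' := by
  rw [Matrix.SpecialLinearGroup.coe_mul, ← Matrix.mul_assoc, h]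
  simp only [Matrix.mul_assoc]
  rw [hswap_mul_inv, Matrix.mul_one]

theorem z2c_matT (ℓ : ℕ) (i : Option (Fin ℓ)) :
    ∃ a b d : ℤ, matT ℓ i = !![a, b; 0, d] ∧ (a = 1 ∨ a = ℓ) := by
  rcases i with _ | j
  · exact ⟨ℓ, 0, 1, rfl, Or.inr rfl⟩
  · exact ⟨1, ((j : ℕ) : ℤ), ℓ, rfl, Or.inl rfl⟩

theorem z2c_not_dvd {q ℓ : ℕ} (hq : q.Prime) (hℓ : ℓ.Prime) (hne : ℓ ≠ q) {a : ℤ}
    (ha : a = 1 ∨ a = ℓ) : ¬ (q : ℤ) ∣ a := by
  rcases ha with rfl | rfl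
  · intro h
    exact (Nat.prime_iff_prime_int.mp hq).not_isUnit (isUnit_of_dvd_one h)
  · intro h
    exact hne ((Nat.prime_dvd_prime_iff_eq hq hℓ).1 (Int.natCast_dvd_natCast.mp h)).symm

/-- [S41/H-Z2c] -/
theorem b2_T (hq : q.Prime) (hqN : ¬ q ∣ N) {ℓ : ℕ} (hℓ : ℓ.Prime) (h : ¬ ℓ ∣ N) (h' : ¬ ℓ ∣ N * q)
    (y : Additive (Gamma0 (N * q)) →+ R) :
    (isFam_b2 hq hqN).tr ((isFam_T (N * q) hℓ h').tr y) =
      (isFam_T N hℓ h).tr ((isFam_b2 hq hqN).tr y) := by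
  have hne : ℓ ≠ q := by
    rintro rfl
    exact h' (Dvd.intro_left N rfl)
  have hqZ : Prime (q : ℤ) := Nat.prime_iff_prime_int.mp hq
  rw [IsFam.tr_comp, IsFam.tr_comp]
  refine IsFam.tr_eq_of_red _ _ ?_ ?_ (m := 1) (n := 1) one_ne_zero ?_ y
  · rintro ε ⟨i, s⟩ ⟨j, t⟩ hh
    have h0 : matT ℓ i * famB2 N q s = ((ε : SL(2, ℤ)) : M2) * (matT ℓ j * famB2 N q t) := hh
    have hst : s = t := by
      have h1 : (matT ℓ i * matU q 0) * ((rB N q s * (rB N q t)⁻¹ : SL(2, ℤ)) : M2) =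
          ((ε : SL(2, ℤ)) : M2) * (matT ℓ j * matU q 0) := by
        apply z2c_shift
        rw [famB2, famB2] at h0
        simp only [Matrix.mul_assoc] at h0 ⊢
        exact h0
      obtain ⟨a, b, d, hi, ha⟩ := z2c_matT ℓ i
      obtain ⟨a', b', d', hj, -⟩ := z2c_matT ℓ j
      rw [hi, hj, z1b_mul_matU, z1b_mul_matU] at h1
      have h01 := congrFun (congrFun h1 0) 1
      simp only [Matrix.mul_apply, Fin.sum_univ_two, Matrix.of_apply, Matrix.cons_val_zero,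
        Matrix.cons_val_one] at h01
      set X : SL(2, ℤ) := rB N q s * (rB N q t)⁻¹ with hX
      have h01' : a * X 0 1 + (q : ℤ) * b * X 1 1 =
          (ε : SL(2, ℤ)) 0 0 * ((q : ℤ) * b') + (ε : SL(2, ℤ)) 0 1 * ((q : ℤ) * d') := h01
      have hdvd : (q : ℤ) ∣ a * X 0 1 :=
        ⟨(ε : SL(2, ℤ)) 0 0 * b' + (ε : SL(2, ℤ)) 0 1 * d' - b * X 1 1, by
          linear_combination h01'⟩
      have hX01 : (q : ℤ) ∣ X 0 1 := (hqZ.dvd_or_dvd hdvd).resolve_left (z2c_not_dvd hq hℓ hne ha)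
      apply rB_inj hq hqN
      rw [hrep_mem_Cp N q hq.pos]
      exact ⟨(Gamma0 N).mul_mem (rB_mem N q s) ((Gamma0 N).inv_mem (rB_mem N q t)), hX01⟩
    subst hst
    have h2 : matT ℓ i = ((ε : SL(2, ℤ)) : M2) * matT ℓ j := by
      apply mat_cancel_right (B := famB2 N q s)
        (by rw [det_famB2]; exact_mod_cast hq.ne_zero)
      rw [h0, Matrix.mul_assoc]
    rw [matT_red hℓ _ i j h2]
  · rw [Fintype.card_prod, Fintype.card_prod, mul_comm]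
  · rintro ⟨i, s⟩
    obtain ⟨a, b, d, hi, -⟩ := z2c_matT ℓ i
    have hdet : a * d = ℓ := by
      have := det_matT ℓ i
      rw [hi, Matrix.det_fin_two_of] at this
      linarith
    have hcomm : matT ℓ i * matU q 0 = matU q 0 * !![a, (q : ℤ) * b; 0, d] := by
      rw [hi, z1b_mul_matU, z1b_matU_mul]
      simp
    obtain ⟨k, g, hg⟩ := complete_T hℓ N h (!![a, (q : ℤ) * b; 0, d] * ((rB N q s : SL(2, ℤ)) : M2))
      (by
        rw [Matrix.det_mul, Matrix.det_fin_two_of]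
        have : ((rB N q s : SL(2, ℤ)) : M2).det = 1 := (rB N q s).2
        rw [this]
        linarith)
      (by
        simp only [Matrix.mul_apply, Fin.sum_univ_two, Matrix.of_apply, Matrix.cons_val_zero,
          Matrix.cons_val_one]
        rw [zero_mul, zero_add]
        exact Dvd.dvd.mul_left (z1b_dvd_10 _ (rB_mem N q s)) _)
    obtain ⟨t, δ, hδ⟩ := complete_b2 hq hqN g
    refine ⟨(t, k), δ, ?_⟩
    rw [one_smul, one_smul]
    show matT ℓ i * famB2 N q s = ((δ : SL(2, ℤ)) : M2) * (famB2 N q t * matT ℓ k)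
    rw [← Matrix.mul_assoc, ← hδ, Matrix.mul_assoc, ← hg, famB2, ← Matrix.mul_assoc, hcomm,
      Matrix.mul_assoc]

end Fermat.Agent.S41.Hecke
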