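import Fermat.Agent.S41.Hecke.Z3b

/-!
# S41 / HECKE : (Z3)  `be y = 0 ⟹ U_q² y = y`   (owner helper12)
-/

set_option autoImplicit false

open CongruenceSubgroup ModularCurve.Period Fermat.Agent.S16.Lower Fermat.Agent.S29
open Fermat.Agent.S16.Lower.LDataAux
open scoped MatrixGroups

noncomputable section

namespace Fermat.Agent.S41.Hecke

variable {N q : ℕ} {R : Type} [AddCommGroup R]

/-- (Z3) -/
theorem uq (hq : q.Prime) (hqN : ¬ q ∣ N) (y : Additive (Gamma0 (N * q)) →+ R)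
    (h1 : (isFam_b1 hq hqN).tr y = 0) (h2 : (isFam_b2 hq hqN).tr y = 0) :
    (isFam_U (N * q) hq (Dvd.intro_left N rfl)).tr
      ((isFam_U (N * q) hq (Dvd.intro_left N rfl)).tr y) = y := by
  have e1 := a1b1 hq hqN y
  have e2 := a2b2 hq hqN y
  rw [h1, map_zero] at e1
  rw [h2, map_zero] at e2
  have e3 : (isFam_R0 hq hqN).tr y = -y := by
    rw [eq_neg_iff_add_eq_zero, add_comm]; exact e1.symm
  have e4 : (isFam_R1 hq hqN).tr y = -y := by
    rw [eq_neg_iff_add_eq_zero, add_comm]; exact e2.symm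
  rw [← R0R1 hq hqN, e4, map_neg, e3, neg_neg]

end Fermat.Agent.S41.Hecke
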