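import Fermat.Agent.S41.Hecke.Z1
import Fermat.Agent.S41.Hecke.Z2
import Fermat.Agent.S41.Hecke.Z3

/-!
# S41 / HECKE : `nonempty_deg`   (owner helper12)
-/

set_option autoImplicit false

open CongruenceSubgroup ModularCurve.Period Fermat.Agent.S16.Lower Fermat.Agent.S29
open scoped MatrixGroups

noncomputable section

namespace Fermat.Agent.S41.Hecke

/-- the transfer on the lattices -/
def trX {M M' : ℕ} {ι : Type} [Fintype ι] {A : ι → M2} (h : IsFam (Gamma0 M) (Gamma0 M') A) :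
    XN M →ₗ[ℤ] XN M' :=
  (AddMonoidHom.mk' (fun c : XN M => (⟨h.tr (c : Additive (Gamma0 M) →+ ℤ),
    fun γ hγ => h.tr_parabolic c.2 γ hγ⟩ : XN M')) (by
      intro c c'
      apply Subtype.ext
      show h.tr ((c : Additive (Gamma0 M) →+ ℤ) + (c' : Additive (Gamma0 M) →+ ℤ)) = _
      rw [map_add]
      rfl)).toIntLinearMap

theorem trX_coe {M M' : ℕ} {ι : Type} [Fintype ι] {A : ι → M2}
    (h : IsFam (Gamma0 M) (Gamma0 M') A) (c : XN M) :
    (trX h c : Additive (Gamma0 M') →+ ℤ) = h.tr (c : Additive (Gamma0 M) →+ ℤ) := rfl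

theorem heckeX_eq (M : ℕ) [NeZero M] {ℓ : ℕ} (hℓ : ℓ.Prime) (h : ¬ ℓ ∣ M) (c : XN M) :
    heckeX M hℓ h c = trX (isFam_T M hℓ h) c := by
  apply Subtype.ext
  rw [trX_coe]
  exact (isFam_T M hℓ h).eq_tr ((isTr_iff_isTransfer _ _ _).2 (isTransfer_heckeX M hℓ h c))

theorem heckeXU_eq (M : ℕ) [NeZero M] {ℓ : ℕ} (hℓ : ℓ.Prime) (h : ℓ ∣ M) (c : XN M) :
    heckeXU M hℓ h c = trX (isFam_U M hℓ h) c := by
  apply Subtype.ext
  rw [trX_coe]
  exact (isFam_U M hℓ h).eq_tr ((isTr_iff_isTransfer _ _ _).2 (isTransfer_heckeXU M hℓ h c))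

/-- [S41/HECKE] -/
theorem nonempty_deg (N q : ℕ) [NeZero N] [NeZero (N * q)] (hq : q.Prime) (hqN : ¬ q ∣ N) :
    Nonempty (Deg N q hq hqN) :=
  ⟨{ a1 := trX (isFam_a1 N q)
     a2 := trX (isFam_a2 N q hq.pos)
     b1 := trX (isFam_b1 hq hqN)
     b2 := trX (isFam_b2 hq hqN)
     a1_apply := fun c γ => by
       rw [trX_coe, (isFam_a1 N q).tr_apply _ (hd_a1 N q γ)]
       simp [hd_a1]
     a2_apply := fun c γ => by
       rw [trX_coe, (isFam_a2 N q hq.pos).tr_apply _ (hd_a2 N q hq.pos γ)]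
       simp [hd_a2]
     b1_tr := fun y => (isFam_b1 hq hqN).isTr_tr _
     b2_tr := fun y => (isFam_b2 hq hqN).isTr_tr _
     b1a1 := fun c => Subtype.ext (b1a1 hq hqN _)
     b2a2 := fun c => Subtype.ext (b2a2 hq hqN _)
     b1a2 := fun c => by rw [heckeX_eq]; exact Subtype.ext (b1a2 hq hqN _)
     b2a1 := fun c => by rw [heckeX_eq]; exact Subtype.ext (b2a1 hq hqN _)
     a1_T := fun ℓ hℓ h h' c => by
       rw [heckeX_eq, heckeX_eq]; exact Subtype.ext (a1_T hℓ h h' _)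
     a2_T := fun ℓ hℓ h h' c => by
       rw [heckeX_eq, heckeX_eq]; exact Subtype.ext (a2_T hq.pos hℓ h h' _)
     b1_T := fun ℓ hℓ h h' y => by
       rw [heckeX_eq, heckeX_eq]; exact Subtype.ext (b1_T hq hqN hℓ h h' _)
     b2_T := fun ℓ hℓ h h' y => by
       rw [heckeX_eq, heckeX_eq]; exact Subtype.ext (b2_T hq hqN hℓ h h' _)
     uq := fun y h1 h2 => by
       rw [heckeXU_eq, heckeXU_eq]
       exact Subtype.ext (uq hq hqN _ (congrArg Subtype.val h1) (congrArg Subtype.val h2)) }⟩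

end Fermat.Agent.S41.Hecke
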