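import Fermat.Agent.S41.Hecke.Mat

/-!
# S41 / HECKE : the families   (owner helper12)

`A = Γ₀(N)`, `C = Γ₀(Nq)`.
* `isFam_T M`, `isFam_U M` : `matT ℓ`, `matUF ℓ` at level `M`;
* `isFam_a1`, `isFam_a2` : `{1}`, `{matD q}`, from `A` to `C`;
* `isFam_b1`, `isFam_b2` : `famB1`, `famB2`, from `C` to `A`; `red_b1`, `red_b2` (reducedness), `complete_b1`, `complete_b2`.
-/

set_option autoImplicit false

open CongruenceSubgroup ModularCurve.Period Fermat.Agent.S16.Lower Fermat.Agent.S29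
open Fermat.Agent.S16.Lower.LDataAux
open scoped MatrixGroups

noncomputable section

namespace Fermat.Agent.S41.Hecke

theorem isFam_T (M : ℕ) {ℓ : ℕ} (hℓ : ℓ.Prime) (h : ¬ ℓ ∣ M) :
    IsFam (Gamma0 M) (Gamma0 M) (matT ℓ) where
  det_ne i := by
    rw [det_matT]
    exact_mod_cast hℓ.ne_zero
  ex γ := ⟨HD.ofHData (nonempty_HData_T hℓ h γ).some⟩

theorem isFam_U (M : ℕ) {ℓ : ℕ} (hℓ : ℓ.Prime) (h : ℓ ∣ M) :
    IsFam (Gamma0 M) (Gamma0 M) (matUF ℓ) where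
  det_ne i := by
    show (matU ℓ i).det ≠ 0
    rw [det_matU]
    exact_mod_cast hℓ.ne_zero
  ex γ := ⟨HD.ofHData (nonempty_HData_U hℓ h γ).some⟩

theorem isFam_a1 (N q : ℕ) : IsFam (Gamma0 N) (Gamma0 (N * q)) (fun _ : Unit => (1 : M2)) :=
  isFam_const Unit (Gamma0_mul_le N q)

/-- the data of `a1` -/
def hd_a1 (N q : ℕ) (γ : Gamma0 (N * q)) :
    HD (Gamma0 N) (Gamma0 (N * q)) (fun _ : Unit => (1 : M2)) γ :=
  ⟨1, fun _ => cI N q γ, fun _ => by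
    rw [Matrix.one_mul, Matrix.mul_one]
    rfl⟩

/-- the data of `a2` -/
def hd_a2 (N q : ℕ) (hq : 0 < q) (γ : Gamma0 (N * q)) :
    HD (Gamma0 N) (Gamma0 (N * q)) (fun _ : Unit => matD q) γ :=
  ⟨1, fun _ => cD N q γ, fun _ => cD_spec N q hq γ⟩

theorem isFam_a2 (N q : ℕ) (hq : 0 < q) :
    IsFam (Gamma0 N) (Gamma0 (N * q)) (fun _ : Unit => matD q) where
  det_ne _ := by
    rw [det_matD]
    exact_mod_cast hq.ne'
  ex γ := ⟨hd_a2 N q hq γ⟩

variable {N q : ℕ}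

theorem det_famB1 (i : Option (Fin q)) : (famB1 N q i).det = 1 := (rA N q i).2

theorem det_famB2 (i : Option (Fin q)) : (famB2 N q i).det = q := by
  rw [famB2, Matrix.det_mul, det_matU]
  have : ((rB N q i : SL(2, ℤ)) : M2).det = 1 := (rB N q i).2
  rw [this, mul_one]

/-- every element of `A` is in some `C r_i` -/
theorem complete_b1 (hq : q.Prime) (hqN : ¬ q ∣ N) (g : Gamma0 N) :
    ∃ (i : Option (Fin q)) (δ : Gamma0 (N * q)),
      ((g : SL(2, ℤ)) : M2) = ((δ : SL(2, ℤ)) : M2) * famB1 N q i := by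
  obtain ⟨i, hi, -⟩ := rA_unique N q hq hqN g g.2
  refine ⟨i, ⟨_, hi⟩, ?_⟩
  show _ = (((g : SL(2, ℤ)) * (rA N q i)⁻¹ : SL(2, ℤ)) : M2) * ((rA N q i : SL(2, ℤ)) : M2)
  rw [← Matrix.SpecialLinearGroup.coe_mul, inv_mul_cancel_right]

/-- the basic criterion: `r_i r_j⁻¹ ∈ C` implies `i = j` -/
theorem rA_inj (hq : q.Prime) (hqN : ¬ q ∣ N) {i j : Option (Fin q)}
    (h : rA N q i * (rA N q j)⁻¹ ∈ Gamma0 (N * q)) : i = j := by
  obtain ⟨k, -, hk⟩ := rA_unique N q hq hqN (rA N q i) (rA_mem N q i)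
  rw [hk j h, hk i (by show _ * _ ∈ _; rw [mul_inv_cancel]; exact one_mem _)]

theorem rB_inj (hq : q.Prime) (hqN : ¬ q ∣ N) {i j : Option (Fin q)}
    (h : rB N q i * (rB N q j)⁻¹ ∈ Cp N q) : i = j := by
  obtain ⟨k, -, hk⟩ := rB_unique N q hq hqN (rB N q i) (rB_mem N q i)
  rw [hk j h, hk i (by show _ * _ ∈ _; rw [mul_inv_cancel]; exact one_mem _)]

theorem red_b1 (hq : q.Prime) (hqN : ¬ q ∣ N) (ε : Gamma0 (N * q)) (i j : Option (Fin q))
    (h : famB1 N q i = ((ε : SL(2, ℤ)) : M2) * famB1 N q j) : i = j := by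
  apply rA_inj hq hqN
  have h1 : rA N q i = (ε : SL(2, ℤ)) * rA N q j := by
    apply Subtype.ext
    rw [Matrix.SpecialLinearGroup.coe_mul]
    exact h
  rw [h1, mul_inv_cancel_right]
  exact ε.2

theorem isFam_b1 (hq : q.Prime) (hqN : ¬ q ∣ N) :
    IsFam (Gamma0 (N * q)) (Gamma0 N) (famB1 N q) := by
  refine IsFam.of_red (fun i => by rw [det_famB1]; exact one_ne_zero) (red_b1 hq hqN) fun γ i => ?_
  obtain ⟨j, δ, h⟩ := complete_b1 hq hqN (⟨rA N q i, rA_mem N q i⟩ * γ)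
  refine ⟨j, δ, ?_⟩
  rw [← h, coe_mul']
  rfl

/-- `ε D' = D' (cD ε)` -/
theorem mul_matU_zero (hq : 0 < q) (ε : Gamma0 (N * q)) :
    ((ε : SL(2, ℤ)) : M2) * matU q 0 = matU q 0 * ((cD N q ε : SL(2, ℤ)) : M2) :=
  hswap_dual hq (cD_spec N q hq ε)

theorem mat_cancel_left {X Y B : M2} (hB : B.det ≠ 0) (h : B * X = B * Y) : X = Y := by
  have h1 : B.det • X = B.det • Y := by
    have := congrArg (B.adjugate * ·) h
    simp only [← Matrix.mul_assoc, Matrix.adjugate_mul, Matrix.smul_mul, Matrix.one_mul] at this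
    exact this
  exact mat_smul_cancel hB h1

theorem det_matU_ne (hq : 0 < q) (j : ℕ) : (matU q j).det ≠ 0 := by
  rw [det_matU]
  exact_mod_cast hq.ne'

/-- every element of `D' A` is in some `C D' r'_i` -/
theorem complete_b2 (hq : q.Prime) (hqN : ¬ q ∣ N) (g : Gamma0 N) :
    ∃ (i : Option (Fin q)) (δ : Gamma0 (N * q)),
      matU q 0 * ((g : SL(2, ℤ)) : M2) = ((δ : SL(2, ℤ)) : M2) * famB2 N q i := by
  obtain ⟨i, ⟨δ, hδ⟩, -⟩ := rB_unique N q hq hqN g g.2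
  refine ⟨i, δ, ?_⟩
  have h1 : (g : SL(2, ℤ)) = (cD N q δ : SL(2, ℤ)) * rB N q i := by
    have : (cD N q δ : SL(2, ℤ)) = (g : SL(2, ℤ)) * (rB N q i)⁻¹ := hδ
    rw [this, inv_mul_cancel_right]
  rw [famB2, ← Matrix.mul_assoc, mul_matU_zero hq.pos, Matrix.mul_assoc,
    ← Matrix.SpecialLinearGroup.coe_mul, ← h1]

theorem red_b2 (hq : q.Prime) (hqN : ¬ q ∣ N) (ε : Gamma0 (N * q)) (i j : Option (Fin q))
    (h : famB2 N q i = ((ε : SL(2, ℤ)) : M2) * famB2 N q j) : i = j := by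
  apply rB_inj hq hqN
  rw [famB2, famB2, ← Matrix.mul_assoc, mul_matU_zero hq.pos, Matrix.mul_assoc] at h
  have h0 := mat_cancel_left (det_matU_ne hq.pos 0) h
  have h1 : rB N q i = (cD N q ε : SL(2, ℤ)) * rB N q j := by
    apply Subtype.ext
    rw [Matrix.SpecialLinearGroup.coe_mul]
    exact h0
  rw [h1, mul_inv_cancel_right]
  exact ⟨ε, rfl⟩

theorem isFam_b2 (hq : q.Prime) (hqN : ¬ q ∣ N) :
    IsFam (Gamma0 (N * q)) (Gamma0 N) (famB2 N q) := by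
  refine IsFam.of_red (fun i => by rw [det_famB2]; exact_mod_cast hq.ne_zero) (red_b2 hq hqN)
    fun γ i => ?_
  obtain ⟨j, δ, h⟩ := complete_b2 hq hqN (⟨rB N q i, rB_mem N q i⟩ * γ)
  refine ⟨j, δ, ?_⟩
  rw [← h, coe_mul', famB2, Matrix.mul_assoc]

end Fermat.Agent.S41.Hecke
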