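import Fermat.Agent.S41.Hecke.Transfer
import Fermat.Agent.S41.IfHecke

/-!
# S41 / HECKE : integer matrices, completeness of the standard representatives   (owner helper12)
-/

set_option autoImplicit false

open CongruenceSubgroup ModularCurve.Period Fermat.Agent.S16.Lower Fermat.Agent.S29
open Fermat.Agent.S16.Lower.LDataAux
open scoped MatrixGroups

noncomputable section

namespace Fermat.Agent.S41.Hecke

/-- peel off a factor `[[1,b],[0,q]]` on the right -/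
theorem peel {q : ℕ} (hq : q.Prime) (M : M2) (hdet : (q : ℤ) ∣ M.det) (h00 : ¬ (q : ℤ) ∣ M 0 0) :
    ∃ (b : Fin q) (X : M2), M = X * matU q b ∧ X 0 0 = M 0 0 ∧ X 1 0 = M 1 0 := by
  obtain ⟨b, t, ht⟩ := exists_fin_congr hq (M 0 0) (M 0 1) h00
  have hqZ : Prime (q : ℤ) := Nat.prime_iff_prime_int.mp hq
  have h1 : (q : ℤ) ∣ M 0 0 * (M 1 1 - (b : ℕ) * M 1 0) := by
    obtain ⟨s, hs⟩ := hdet
    rw [Matrix.det_fin_two] at hs
    exact ⟨s + M 1 0 * t, by linear_combination hs + M 1 0 * ht⟩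
  obtain ⟨t', ht'⟩ := (hqZ.dvd_or_dvd h1).resolve_left h00
  refine ⟨b, !![M 0 0, t; M 1 0, t'], ?_, rfl, rfl⟩
  rw [mul_matU, Matrix.eta_fin_two M]
  have e1 : M 0 1 = M 0 0 * (b : ℕ) + t * q := by linear_combination ht
  have e2 : M 1 1 = M 1 0 * (b : ℕ) + t' * q := by linear_combination ht'
  simp only [Matrix.of_apply, Matrix.cons_val_zero, Matrix.cons_val_one]
  rw [← e1, ← e2]

/-- the same when `q ∤ M 1 0` -/
theorem peel' {q : ℕ} (hq : q.Prime) (M : M2) (hdet : (q : ℤ) ∣ M.det) (h10 : ¬ (q : ℤ) ∣ M 1 0) :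
    ∃ (b : Fin q) (X : M2), M = X * matU q b ∧ X 0 0 = M 0 0 ∧ X 1 0 = M 1 0 := by
  obtain ⟨b, t', ht'⟩ := exists_fin_congr hq (M 1 0) (M 1 1) h10
  have hqZ : Prime (q : ℤ) := Nat.prime_iff_prime_int.mp hq
  have h1 : (q : ℤ) ∣ M 1 0 * (M 0 1 - (b : ℕ) * M 0 0) := by
    obtain ⟨s, hs⟩ := hdet
    rw [Matrix.det_fin_two] at hs
    exact ⟨- s + M 0 0 * t', by linear_combination - hs + M 0 0 * ht'⟩
  obtain ⟨t, ht⟩ := (hqZ.dvd_or_dvd h1).resolve_left h10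
  refine ⟨b, !![M 0 0, t; M 1 0, t'], ?_, rfl, rfl⟩
  rw [mul_matU, Matrix.eta_fin_two M]
  have e1 : M 0 1 = M 0 0 * (b : ℕ) + t * q := by linear_combination ht
  have e2 : M 1 1 = M 1 0 * (b : ℕ) + t' * q := by linear_combination ht'
  simp only [Matrix.of_apply, Matrix.cons_val_zero, Matrix.cons_val_one]
  rw [← e1, ← e2]

theorem det_matU (q j : ℕ) : (matU q j).det = q := by
  simp [matU, Matrix.det_fin_two_of]

theorem det_matD (q : ℕ) : (matD q).det = q := by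
  simp [matD, Matrix.det_fin_two_of]

theorem det_matT (q : ℕ) (i : Option (Fin q)) : (matT q i).det = q := by
  rcases i with _ | j
  · exact det_matD q
  · exact det_matU q j

/-- an element of `Γ₀(L)` from a matrix -/
theorem exists_Gamma0 (L : ℕ) (X : M2) (hdet : X.det = 1) (h10 : (L : ℤ) ∣ X 1 0) :
    ∃ ε : Gamma0 L, ((ε : SL(2, ℤ)) : M2) = X :=
  ⟨⟨(⟨X, hdet⟩ : SL(2, ℤ)), Gamma0_mem.mpr ((ZMod.intCast_zmod_eq_zero_iff_dvd _ L).mpr h10)⟩, rfl⟩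

theorem complete_U {ℓ : ℕ} (hℓ : ℓ.Prime) (L : ℕ) (M : M2) (hdet : M.det = ℓ)
    (h00 : ¬ (ℓ : ℤ) ∣ M 0 0) (h10 : (L : ℤ) ∣ M 1 0) :
    ∃ (j : Fin ℓ) (ε : Gamma0 L), M = ((ε : SL(2, ℤ)) : M2) * matU ℓ j := by
  obtain ⟨b, X, hX, -, hX10⟩ := peel hℓ M (by rw [hdet]) h00
  have hℓ0 : (ℓ : ℤ) ≠ 0 := by exact_mod_cast hℓ.ne_zero
  have hd : X.det = 1 := by
    have := congrArg Matrix.det hX
    rw [Matrix.det_mul, det_matU, hdet] at this
    exact mul_right_cancel₀ hℓ0 (by linarith)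
  obtain ⟨ε, hε⟩ := exists_Gamma0 L X hd (hX10 ▸ h10)
  exact ⟨b, ε, by rw [hε]; exact hX⟩

theorem complete_T {ℓ : ℕ} (hℓ : ℓ.Prime) (L : ℕ) (hL : ¬ ℓ ∣ L) (M : M2) (hdet : M.det = ℓ)
    (h10 : (L : ℤ) ∣ M 1 0) :
    ∃ (i : Option (Fin ℓ)) (ε : Gamma0 L), M = ((ε : SL(2, ℤ)) : M2) * matT ℓ i := by
  have hℓ0 : (ℓ : ℤ) ≠ 0 := by exact_mod_cast hℓ.ne_zero
  by_cases h00 : (ℓ : ℤ) ∣ M 0 0
  · by_cases h1 : (ℓ : ℤ) ∣ M 1 0
    · obtain ⟨a, ha⟩ := h00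
      obtain ⟨c, hc⟩ := h1
      have hcop : IsCoprime (L : ℤ) (ℓ : ℤ) := by
        rw [Nat.isCoprime_iff_coprime, Nat.coprime_comm]
        exact (Nat.Prime.coprime_iff_not_dvd hℓ).mpr hL
      have hLc : (L : ℤ) ∣ c := by
        rw [hc] at h10
        exact hcop.dvd_of_dvd_mul_left h10
      have hd : (!![a, M 0 1; c, M 1 1] : M2).det = 1 := by
        rw [Matrix.det_fin_two_of]
        rw [Matrix.det_fin_two, ha, hc] at hdet
        exact mul_left_cancel₀ hℓ0 (by linear_combination hdet)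
      obtain ⟨ε, hε⟩ := exists_Gamma0 L _ hd hLc
      refine ⟨none, ε, ?_⟩
      rw [hε]
      show M = _ * matD ℓ
      rw [mul_matD, ← mul_comm (ℓ : ℤ), ← mul_comm (ℓ : ℤ), ← ha, ← hc]
      exact Matrix.eta_fin_two M
    · obtain ⟨b, X, hX, -, hX10⟩ := peel' hℓ M (by rw [hdet]) h1
      have hd : X.det = 1 := by
        have := congrArg Matrix.det hX
        rw [Matrix.det_mul, det_matU, hdet] at this
        exact mul_right_cancel₀ hℓ0 (by linarith)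
      obtain ⟨ε, hε⟩ := exists_Gamma0 L X hd (hX10 ▸ h10)
      exact ⟨some b, ε, by rw [hε]; exact hX⟩
  · obtain ⟨j, ε, h⟩ := complete_U hℓ L M hdet h00 h10
    exact ⟨some j, ε, h⟩

theorem matT_red {ℓ : ℕ} (hℓ : ℓ.Prime) (ε : SL(2, ℤ)) (i j : Option (Fin ℓ))
    (h : matT ℓ i = (ε : M2) * matT ℓ j) : i = j := by
  cases i with
  | none =>
    cases j with
    | none => rfl
    | some j₂ => exact absurd h (matD_ne_matU hℓ ε j₂)
  | some j₁ =>
    cases j with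
    | none => exact absurd h (matU_ne_matD hℓ ε j₁)
    | some j₂ => rw [matU_inj ε j₁ j₂ h]

end Fermat.Agent.S41.Hecke
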