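import Fermat.Agent.S41.Hecke.Transfer

/-!
# S41 / HECKE : families indexed by `Option κ`    key [S41/H-OPT]   (~60 lines)

`e : Option κ ≃ Unit ⊕ κ` (`(Equiv.optionEquivSumPUnit κ).trans (Equiv.sumComm _ _)`, or by hand);
`of_option` : `IsFam.of_sum_right h0 (hA.of_equiv e.symm 1 one_ne_zero one_ne_zero _) _`;   `tr_option` : `tr_congr` + `tr_sum`.
-/

set_option autoImplicit false

open scoped MatrixGroups

noncomputable section

namespace Fermat.Agent.S41.Hecke

variable {Γ Γ' : Subgroup SL(2, ℤ)} {κ : Type} {R : Type} [AddCommGroup R]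

/-- `Unit ⊕ κ ≃ Option κ` -/
def optE (κ : Type) : Unit ⊕ κ ≃ Option κ where
  toFun := Sum.elim (fun _ => none) some
  invFun := fun o => o.elim (Sum.inl ()) Sum.inr
  left_inv := by
    rintro (⟨⟩ | j) <;> rfl
  right_inv := by
    rintro (_ | j) <;> rfl

theorem optE_rel (A : Option κ → M2) (i : Unit ⊕ κ) :
    (1 : ℤ) • Sum.elim (fun _ : Unit => A none) (fun j : κ => A (some j)) i =
      (1 : ℤ) • ((((1 : Γ) : SL(2, ℤ)) : M2) * A (optE κ i)) := by
  rw [coe_one', Matrix.one_mul]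
  rcases i with ⟨⟩ | j <;> rfl

theorem optE_elim (A : Option κ → M2) (i : Unit ⊕ κ) :
    Sum.elim (fun _ : Unit => A none) (fun j : κ => A (some j)) i = A (optE κ i) := by
  rcases i with ⟨⟩ | j <;> rfl

/-- [S41/H-OPT] -/
theorem IsFam.of_option [Finite κ] {A : Option κ → M2} (hA : IsFam Γ Γ' A)
    (h0 : IsFam Γ Γ' (fun _ : Unit => A none))
    (red : ∀ (ε : Γ) (i j : Option κ), A i = ((ε : SL(2, ℤ)) : M2) * A j → i = j) :
    IsFam Γ Γ' (fun j : κ => A (some j)) := by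
  refine IsFam.of_sum_right h0
    (hA.of_equiv (optE κ) (fun _ => 1) one_ne_zero one_ne_zero (optE_rel A)) ?_
  intro ε i j h
  rw [optE_elim, optE_elim] at h
  exact (optE κ).injective (red ε _ _ h)

/-- [S41/H-OPT] -/
theorem IsFam.tr_option [Fintype κ] {A : Option κ → M2} (hA : IsFam Γ Γ' A)
    (h0 : IsFam Γ Γ' (fun _ : Unit => A none)) (h1 : IsFam Γ Γ' (fun j : κ => A (some j)))
    (c : Additive Γ →+ R) : hA.tr c = h0.tr c + h1.tr c := by
  rw [← IsFam.tr_sum h0 h1 c]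
  exact (hA.tr_congr (h0.sum h1) (optE κ) (fun _ => 1) one_ne_zero (optE_rel A) c).symm

end Fermat.Agent.S41.Hecke
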