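import Fermat.Agent.S41.Defs

/-!
# S41 / HECKE : two-level transfer calculus   (owner helper12)

`Γ, Γ' ≤ SL(2,ℤ)`, `A : ι → M₂(ℤ)` a finite family with `det A_i ≠ 0` such that every `γ ∈ Γ'` has Hecke data
`A_i γ = δ_i A_{σ i}`, `δ_i ∈ Γ`, `σ` a permutation (`IsFam Γ Γ' A`; the cosets `Γ A_i` need NOT be distinct).
Then `∑ i, c (δ_i)` does not depend on the data (`sum_eq`, by the cycle lemma) and
`h.tr : Hom(Γ, R) →+ Hom(Γ', R)` is defined for every abelian group `R`.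

* `IsFam.tr_apply`, `IsFam.isTr_tr`, `IsFam.eq_tr` : characterisation (link with `IsTr` of `Defs.lean`);
* `IsFam.comp`, `IsFam.tr_comp` : `tr_B ∘ tr_A = tr_{A_i B_j}`;
* `IsFam.of_equiv`, `IsFam.tr_congr` : `m A'_i = n ε_i A_{e i}`;   `IsFam.tr_eq_of_red` : the same without an explicit bijection;
* `IsFam.sum`, `IsFam.tr_sum` : disjoint unions;   `isFam_const`, `tr_const` : `card ι • res`;
* `IsFam.of_red` : existence of the data from `red` + `ex`;
* `IsFam.tr_parabolic`, `IsFam.tr_torsion`, `IsFam.tr_map`.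
-/

set_option autoImplicit false

open CongruenceSubgroup ModularCurve.Period Fermat.Agent.S16.Lower Fermat.Agent.S29
open scoped MatrixGroups

noncomputable section

namespace Fermat.Agent.S41.Hecke

/-! ### the cycle lemma -/

theorem sum_eq_zero_of_cycles {ι M : Type*} [Fintype ι] [AddCommMonoid M] (τ : Equiv.Perm ι)
    (f : ι → M)
    (h : ∀ (i : ι) (n : ℕ), 0 < n → (τ ^ n) i = i → ∑ j ∈ Finset.range n, f ((τ ^ j) i) = 0) :
    ∑ i, f i = 0 := by
  classical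
  rw [Finset.sum_partition (Equiv.Perm.SameCycle.setoid τ)]
  refine Finset.sum_eq_zero fun xbar _ => ?_
  induction xbar using Quotient.inductionOn with
  | h i =>
    set n := Function.minimalPeriod τ i with hn
    have hper : i ∈ Function.periodicPts τ := by
      refine ⟨orderOf τ, orderOf_pos τ, ?_⟩
      show τ^[orderOf τ] i = i
      rw [← Equiv.Perm.coe_pow, pow_orderOf_eq_one]; rfl
    have hn0 : 0 < n := Function.minimalPeriod_pos_of_mem_periodicPts hper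
    have hni : (τ ^ n) i = i := by
      rw [Equiv.Perm.coe_pow]
      exact Function.iterate_minimalPeriod
    rw [← h i n hn0 hni]
    symm
    refine Finset.sum_bij (fun j _ => (τ ^ j) i) ?_ ?_ ?_ ?_
    · intro j _
      rw [Finset.mem_filter]
      refine ⟨Finset.mem_univ _, Quotient.sound ?_⟩
      show Equiv.Perm.SameCycle τ ((τ ^ j) i) i
      exact (Equiv.Perm.SameCycle.symm ⟨j, by simp⟩)
    · intro a ha b hb hab
      rw [Equiv.Perm.coe_pow, Equiv.Perm.coe_pow] at hab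
      exact Function.iterate_injOn_Iio_minimalPeriod (Finset.mem_range.1 ha)
        (Finset.mem_range.1 hb) hab
    · intro y hy
      rw [Finset.mem_filter] at hy
      have h1 : Equiv.Perm.SameCycle τ i y :=
        (Quotient.exact hy.2 : Equiv.Perm.SameCycle τ y i).symm
      obtain ⟨m, hm⟩ := h1.exists_nat_pow_eq
      refine ⟨m % n, Finset.mem_range.2 (Nat.mod_lt _ hn0), ?_⟩
      rw [← hm, Equiv.Perm.coe_pow, Equiv.Perm.coe_pow]
      exact Function.iterate_mod_minimalPeriod_eq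
    · intro _ _; rfl

/-! ### matrices -/

theorem mat_cancel_right {X Y B : M2} (hB : B.det ≠ 0) (h : X * B = Y * B) : X = Y := by
  have h1 : B.det • X = B.det • Y := by
    have := congrArg (· * B.adjugate) h
    simp only [Matrix.mul_assoc, Matrix.mul_adjugate, Matrix.mul_smul, Matrix.mul_one] at this
    exact this
  ext i j
  have h2 := congrFun (congrFun h1 i) j
  simp only [Matrix.smul_apply, smul_eq_mul] at h2
  exact mul_left_cancel₀ hB h2

theorem mat_smul_cancel {X Y : M2} {m : ℤ} (hm : m ≠ 0) (h : m • X = m • Y) : X = Y := by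
  ext i j
  have h2 := congrFun (congrFun h i) j
  simp only [Matrix.smul_apply, smul_eq_mul] at h2
  exact mul_left_cancel₀ hm h2

theorem trace_eq_of_conj {X Y B : M2} (hB : B.det ≠ 0) (h : B * X = Y * B) :
    Y.trace = X.trace := by
  have h1 : B.det * Y.trace = B.det * X.trace := by
    have e1 : (Y * B * B.adjugate).trace = B.det * Y.trace := by
      rw [Matrix.mul_assoc, Matrix.mul_adjugate, Matrix.mul_smul, Matrix.mul_one,
        Matrix.trace_smul, smul_eq_mul]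
    have e2 : (B * X * B.adjugate).trace = B.det * X.trace := by
      rw [Matrix.trace_mul_comm, ← Matrix.mul_assoc, Matrix.adjugate_mul, Matrix.smul_mul,
        Matrix.one_mul, Matrix.trace_smul, smul_eq_mul]
    rw [← e1, ← e2, h]
  exact mul_left_cancel₀ hB h1

theorem mat_sq (m : M2) : m * m = m.trace • m - m.det • (1 : M2) := by
  ext i j
  rw [Matrix.sub_apply, Matrix.smul_apply, Matrix.smul_apply, smul_eq_mul, smul_eq_mul,
    Matrix.mul_apply, Fin.sum_univ_two, Matrix.trace_fin_two, Matrix.det_fin_two]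
  fin_cases i <;> fin_cases j <;> simp <;> ring

theorem trace_rec (m : M2) (b : ℕ) :
    (m ^ (b + 2)).trace = m.trace * (m ^ (b + 1)).trace - m.det * (m ^ b).trace := by
  have h : m ^ (b + 2) = m.trace • m ^ (b + 1) - m.det • m ^ b := by
    rw [pow_add, pow_two, mat_sq, mul_sub, mul_smul_comm, mul_smul_comm, mul_one, ← pow_succ]
  rw [h, Matrix.trace_sub, Matrix.trace_smul, Matrix.trace_smul, smul_eq_mul, smul_eq_mul]

theorem trace_pow_sq (g : SL(2, ℤ)) (h : (g : M2).trace ^ 2 = 4) (n : ℕ) :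
    ((g ^ n : SL(2, ℤ)) : M2).trace ^ 2 = 4 := by
  rw [Matrix.SpecialLinearGroup.coe_pow]
  set μ : M2 := (g : M2) with hμ
  have hdet : μ.det = 1 := g.2
  obtain ⟨e, he, ht⟩ : ∃ e : ℤ, e * e = 1 ∧ μ.trace = 2 * e := by
    have h1 : (μ.trace - 2) * (μ.trace + 2) = 0 := by ring_nf; linarith
    rcases mul_eq_zero.1 h1 with h2 | h2
    · exact ⟨1, by norm_num, by linarith⟩
    · exact ⟨-1, by norm_num, by linarith⟩
  have key : ∀ n : ℕ, (μ ^ n).trace = 2 * e ^ n ∧ (μ ^ (n + 1)).trace = 2 * e ^ (n + 1) := by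
    intro n
    induction n with
    | zero => exact ⟨by simp, by simpa using ht⟩
    | succ n ih =>
      refine ⟨ih.2, ?_⟩
      rw [trace_rec, ih.1, ih.2, ht, hdet]
      have : e ^ (n + 1 + 1) = e ^ n * (e * e) := by ring
      rw [this, he]
      have h3 : e * e ^ (n + 1) = e ^ n * (e * e) := by ring
      linear_combination 4 * h3 + (4 * e ^ n) * he
  rw [(key n).1, mul_pow, ← pow_mul, mul_comm n 2, pow_mul, pow_two e, he, one_pow]
  norm_num

variable {Γ Γ' Γ'' : Subgroup SL(2, ℤ)} {ι κ ι' : Type}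

theorem coe_mul' (a b : Γ) : (((a * b : Γ) : SL(2, ℤ)) : M2) =
    ((a : SL(2, ℤ)) : M2) * ((b : SL(2, ℤ)) : M2) := by
  rw [Subgroup.coe_mul, Matrix.SpecialLinearGroup.coe_mul]

theorem coe_one' : (((1 : Γ) : SL(2, ℤ)) : M2) = 1 := by
  rw [Subgroup.coe_one, Matrix.SpecialLinearGroup.coe_one]

theorem coe_inv_mul (a : Γ) : (((a⁻¹ : Γ) : SL(2, ℤ)) : M2) * ((a : SL(2, ℤ)) : M2) = 1 := by
  rw [← coe_mul', inv_mul_cancel, coe_one']

theorem coe_mul_inv (a : Γ) : ((a : SL(2, ℤ)) : M2) * (((a⁻¹ : Γ) : SL(2, ℤ)) : M2) = 1 := by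
  rw [← coe_mul', mul_inv_cancel, coe_one']

theorem coe_inj {a b : Γ} (h : ((a : SL(2, ℤ)) : M2) = ((b : SL(2, ℤ)) : M2)) : a = b :=
  Subtype.ext (Subtype.ext h)

theorem coe_inv_mul_cancel (a : Γ) (X : M2) :
    (((a⁻¹ : Γ) : SL(2, ℤ)) : M2) * (((a : SL(2, ℤ)) : M2) * X) = X := by
  rw [← Matrix.mul_assoc, coe_inv_mul, Matrix.one_mul]

theorem coe_mul_inv_cancel (a : Γ) (X : M2) :
    ((a : SL(2, ℤ)) : M2) * ((((a⁻¹ : Γ) : SL(2, ℤ)) : M2) * X) = X := by
  rw [← Matrix.mul_assoc, coe_mul_inv, Matrix.one_mul]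

/-! ### operations on Hecke data -/

section data

variable {A : ι → M2} {γ γ' : Γ'}

/-- the data of a product -/
def hdMul (D : HD Γ Γ' A γ) (D' : HD Γ Γ' A γ') : HD Γ Γ' A (γ * γ') where
  σ := D.σ.trans D'.σ
  δ i := D.δ i * D'.δ (D.σ i)
  rel i := by
    rw [coe_mul', ← Matrix.mul_assoc, D.rel, Matrix.mul_assoc, D'.rel, ← Matrix.mul_assoc,
      coe_mul']
    rfl

theorem sum_hdMul [Fintype ι] (D : HD Γ Γ' A γ) (D' : HD Γ Γ' A γ') {R : Type} [AddCommGroup R]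
    (c : Additive Γ →+ R) :
    ∑ i, c (Additive.ofMul ((hdMul D D').δ i)) =
      ∑ i, c (Additive.ofMul (D.δ i)) + ∑ i, c (Additive.ofMul (D'.δ i)) := by
  have h1 : ∀ i, c (Additive.ofMul ((hdMul D D').δ i)) =
      c (Additive.ofMul (D.δ i)) + c (Additive.ofMul (D'.δ (D.σ i))) := by
    intro i
    change c (Additive.ofMul (D.δ i * D'.δ (D.σ i))) = _
    rw [ofMul_mul, map_add]
  simp_rw [h1]
  rw [Finset.sum_add_distrib, Equiv.sum_comp D.σ (fun i => c (Additive.ofMul (D'.δ i)))]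

/-- `δ_i δ_{σ i} ⋯ δ_{σ^{n-1} i}` -/
def cyc (D : HD Γ Γ' A γ) : ℕ → ι → Γ
  | 0, _ => 1
  | n + 1, i => cyc D n i * D.δ ((D.σ ^ n) i)

theorem cyc_rel (D : HD Γ Γ' A γ) (n : ℕ) (i : ι) :
    A i * (((γ ^ n : Γ') : SL(2, ℤ)) : M2) =
      ((cyc D n i : SL(2, ℤ)) : M2) * A ((D.σ ^ n) i) := by
  induction n with
  | zero => simp [cyc]
  | succ n ih =>
    rw [pow_succ, coe_mul', ← Matrix.mul_assoc, ih, Matrix.mul_assoc, D.rel, ← Matrix.mul_assoc]
    show _ = (((cyc D n i * D.δ ((D.σ ^ n) i) : Γ) : SL(2, ℤ)) : M2) * _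
    rw [coe_mul', pow_succ']
    rfl

theorem map_cyc (D : HD Γ Γ' A γ) {R : Type} [AddCommGroup R] (c : Additive Γ →+ R) (n : ℕ)
    (i : ι) : c (Additive.ofMul (cyc D n i)) =
      ∑ j ∈ Finset.range n, c (Additive.ofMul (D.δ ((D.σ ^ j) i))) := by
  induction n with
  | zero => simp [cyc]
  | succ n ih =>
    rw [Finset.sum_range_succ, ← ih]
    show c (Additive.ofMul (cyc D n i * D.δ ((D.σ ^ n) i))) = _
    rw [ofMul_mul, map_add]

/-- the vanishing criterion -/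
theorem sum_eq_zero_of_forall [Fintype ι] (D : HD Γ Γ' A γ) {R : Type} [AddCommGroup R]
    (c : Additive Γ →+ R)
    (h : ∀ (n : ℕ) (i : ι) (δ : Γ), 0 < n →
      A i * (((γ ^ n : Γ') : SL(2, ℤ)) : M2) = ((δ : SL(2, ℤ)) : M2) * A i →
      c (Additive.ofMul δ) = 0) :
    ∑ i, c (Additive.ofMul (D.δ i)) = 0 := by
  refine sum_eq_zero_of_cycles D.σ (fun i => c (Additive.ofMul (D.δ i))) fun i n hn hi => ?_
  rw [← map_cyc]
  refine h n i _ hn ?_
  have := cyc_rel D n i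
  rwa [hi] at this

/-- independence of the data -/
theorem sum_eq [Fintype ι] (hdet : ∀ i, (A i).det ≠ 0) (D D' : HD Γ Γ' A γ) {R : Type}
    [AddCommGroup R] (c : Additive Γ →+ R) :
    ∑ i, c (Additive.ofMul (D.δ i)) = ∑ i, c (Additive.ofMul (D'.δ i)) := by
  let E : HD Γ Γ' A (1 : Γ') :=
    { σ := D.σ.symm.trans D'.σ
      δ := fun k => (D.δ (D.σ.symm k))⁻¹ * D'.δ (D.σ.symm k)
      rel := fun k => by
        have h1 := D.rel (D.σ.symm k)
        have h2 := D'.rel (D.σ.symm k)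
        rw [Equiv.apply_symm_apply] at h1
        rw [coe_one', Matrix.mul_one, coe_mul', Matrix.mul_assoc]
        show A k = _ * (_ * A (D'.σ (D.σ.symm k)))
        rw [← h2, h1, coe_inv_mul_cancel] }
  have h0 : ∑ k, c (Additive.ofMul (E.δ k)) = 0 := by
    refine sum_eq_zero_of_forall E c fun n i δ _ h => ?_
    rw [one_pow, coe_one', Matrix.mul_one] at h
    have h3 : δ = 1 := by
      apply coe_inj
      rw [coe_one']
      apply mat_cancel_right (hdet i)
      rw [← h, Matrix.one_mul]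
    rw [h3, ofMul_one, map_zero]
  have h1 : ∀ k, c (Additive.ofMul (E.δ k)) =
      c (Additive.ofMul (D'.δ (D.σ.symm k))) - c (Additive.ofMul (D.δ (D.σ.symm k))) := by
    intro k
    show c (Additive.ofMul ((D.δ (D.σ.symm k))⁻¹ * D'.δ (D.σ.symm k))) = _
    rw [ofMul_mul, ofMul_inv, map_add, map_neg]
    abel
  simp_rw [h1] at h0
  rw [Finset.sum_sub_distrib, Equiv.sum_comp D.σ.symm (fun i => c (Additive.ofMul (D'.δ i))),
    Equiv.sum_comp D.σ.symm (fun i => c (Additive.ofMul (D.δ i)))] at h0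
  exact (sub_eq_zero.1 h0).symm

end data

/-! ### families -/

/-- a finite family of matrices with Hecke data for every `γ ∈ Γ'` -/
structure IsFam (Γ Γ' : Subgroup SL(2, ℤ)) (A : ι → M2) : Prop where
  det_ne : ∀ i, (A i).det ≠ 0
  ex : ∀ γ : Γ', Nonempty (HD Γ Γ' A γ)

namespace IsFam

variable {A : ι → M2} {B : κ → M2} {A' : ι' → M2}

/-- existence of the data for a reduced family -/
theorem of_red [Finite ι] (hdet : ∀ i, (A i).det ≠ 0)
    (red : ∀ (ε : Γ) (i j : ι), A i = ((ε : SL(2, ℤ)) : M2) * A j → i = j)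
    (ex : ∀ (γ : Γ') (i : ι), ∃ (j : ι) (δ : Γ),
      A i * ((γ : SL(2, ℤ)) : M2) = ((δ : SL(2, ℤ)) : M2) * A j) : IsFam Γ Γ' A := by
  refine ⟨hdet, fun γ => ?_⟩
  choose σ δ hrel using ex γ
  have hσ : Function.Injective σ := by
    intro i i₂ hi
    apply red (δ i * (δ i₂)⁻¹) i i₂
    have h1 := hrel i
    have h2 := hrel i₂
    rw [← hi] at h2
    have h3 : A (σ i) = (((δ i₂)⁻¹ : Γ) : SL(2, ℤ)) * (A i₂ * ((γ : SL(2, ℤ)) : M2)) := by
      rw [h2, coe_inv_mul_cancel]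
    calc A i = A i * ((γ : SL(2, ℤ)) : M2) * (((γ⁻¹ : Γ') : SL(2, ℤ)) : M2) := by
            rw [Matrix.mul_assoc, coe_mul_inv, Matrix.mul_one]
      _ = _ := by
            rw [h1, h3, coe_mul']
            simp only [Matrix.mul_assoc]
            rw [coe_mul_inv, Matrix.mul_one]
  exact ⟨⟨Equiv.ofBijective σ (Finite.injective_iff_bijective.mp hσ), δ, hrel⟩⟩

variable {R : Type} [AddCommGroup R]

/-- the transfer of a homomorphism -/
def trHom [Fintype ι] (h : IsFam Γ Γ' A) (c : Additive Γ →+ R) : Additive Γ' →+ R :=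
  AddMonoidHom.mk' (fun γ => ∑ i, c (Additive.ofMul ((h.ex γ.toMul).some.δ i))) (by
    intro γ γ'
    change ∑ i, c (Additive.ofMul ((h.ex (γ.toMul * γ'.toMul)).some.δ i)) = _
    rw [sum_eq h.det_ne _ (hdMul (h.ex γ.toMul).some (h.ex γ'.toMul).some) c, sum_hdMul])

/-- the transfer operator of a family -/
def tr [Fintype ι] (h : IsFam Γ Γ' A) : (Additive Γ →+ R) →+ (Additive Γ' →+ R) :=
  AddMonoidHom.mk' (fun c => h.trHom c) (by
    intro c c'
    ext γ
    change ∑ i, (c + c') _ = ∑ i, c _ + ∑ i, c' _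
    simp only [AddMonoidHom.add_apply]
    rw [Finset.sum_add_distrib])

theorem tr_apply [Fintype ι] (h : IsFam Γ Γ' A) (c : Additive Γ →+ R) {γ : Γ'}
    (D : HD Γ Γ' A γ) : h.tr c (Additive.ofMul γ) = ∑ i, c (Additive.ofMul (D.δ i)) :=
  sum_eq h.det_ne _ D c

theorem isTr_tr [Fintype ι] (h : IsFam Γ Γ' A) (c : Additive Γ →+ R) :
    IsTr Γ Γ' A c (h.tr c) := fun _ D => h.tr_apply c D

theorem eq_tr [Fintype ι] (h : IsFam Γ Γ' A) {c : Additive Γ →+ R} {c' : Additive Γ' →+ R}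
    (hc : IsTr Γ Γ' A c c') : c' = h.tr c := by
  ext γ
  have D := (h.ex γ).some
  exact (hc γ D).trans (h.tr_apply c D).symm

theorem isTr_iff [Fintype ι] (h : IsFam Γ Γ' A) {c : Additive Γ →+ R} {c' : Additive Γ' →+ R} :
    IsTr Γ Γ' A c c' ↔ c' = h.tr c :=
  ⟨h.eq_tr, fun e => e ▸ h.isTr_tr c⟩

/-- naturality in the coefficients -/
theorem tr_map [Fintype ι] (h : IsFam Γ Γ' A) {R' : Type} [AddCommGroup R'] (φ : R →+ R')
    (c : Additive Γ →+ R) : h.tr (φ.comp c) = φ.comp (h.tr c) := by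
  ext γ
  have D := (h.ex γ).some
  change h.tr (φ.comp c) (Additive.ofMul γ) = φ (h.tr c (Additive.ofMul γ))
  rw [h.tr_apply _ D, h.tr_apply _ D, map_sum]
  rfl

/-! ### composition -/

/-- the data of a composition -/
def hdComp {γ : Γ''} (E : HD Γ' Γ'' B γ) (D : ∀ j, HD Γ Γ' A (E.δ j)) :
    HD Γ Γ'' (fun x : ι × κ => A x.1 * B x.2) γ where
  σ :=
    { toFun := fun x => ((D x.2).σ x.1, E.σ x.2)
      invFun := fun y => ((D (E.σ.symm y.2)).σ.symm y.1, E.σ.symm y.2)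
      left_inv := fun x => by
        obtain ⟨i, j⟩ := x
        show ((D (E.σ.symm (E.σ j))).σ.symm ((D j).σ i), E.σ.symm (E.σ j)) = (i, j)
        rw [Equiv.symm_apply_apply, Equiv.symm_apply_apply]
      right_inv := fun y => by simp }
  δ x := (D x.2).δ x.1
  rel x := by
    change A x.1 * B x.2 * _ = _ * (A ((D x.2).σ x.1) * B (E.σ x.2))
    rw [Matrix.mul_assoc, E.rel, ← Matrix.mul_assoc, (D x.2).rel, Matrix.mul_assoc]

theorem comp (hA : IsFam Γ Γ' A) (hB : IsFam Γ' Γ'' B) :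
    IsFam Γ Γ'' (fun x : ι × κ => A x.1 * B x.2) where
  det_ne x := by
    rw [Matrix.det_mul]
    exact mul_ne_zero (hA.det_ne _) (hB.det_ne _)
  ex γ := ⟨hdComp (hB.ex γ).some fun j => (hA.ex _).some⟩

theorem tr_comp [Fintype ι] [Fintype κ] (hA : IsFam Γ Γ' A) (hB : IsFam Γ' Γ'' B)
    (c : Additive Γ →+ R) : hB.tr (hA.tr c) = (hA.comp hB).tr c := by
  ext γ
  let E := (hB.ex γ).some
  let D : ∀ j, HD Γ Γ' A (E.δ j) := fun j => (hA.ex _).some
  change hB.tr (hA.tr c) (Additive.ofMul γ) = (hA.comp hB).tr c (Additive.ofMul γ)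
  rw [hB.tr_apply _ E, (hA.comp hB).tr_apply c (hdComp E D), Fintype.sum_prod_type_right]
  refine Finset.sum_congr rfl fun j _ => ?_
  rw [hA.tr_apply c (D j)]
  rfl

/-! ### equivalence -/

/-- the data of an equivalent family -/
def hdEquiv (e : ι' ≃ ι) (ε : ι' → Γ) {m n : ℤ} (hm : m ≠ 0)
    (h : ∀ i, m • A' i = n • (((ε i : SL(2, ℤ)) : M2) * A (e i))) {γ : Γ'} (D : HD Γ Γ' A γ) :
    HD Γ Γ' A' γ where
  σ := (e.trans D.σ).trans e.symm
  δ i := ε i * D.δ (e i) * (ε (e.symm (D.σ (e i))))⁻¹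
  rel i := by
    apply mat_smul_cancel hm
    have hk := h (e.symm (D.σ (e i)))
    rw [Equiv.apply_symm_apply] at hk
    calc m • (A' i * ((γ : SL(2, ℤ)) : M2)) = (m • A' i) * ((γ : SL(2, ℤ)) : M2) :=
          (Matrix.smul_mul _ _ _).symm
      _ = n • (((ε i : SL(2, ℤ)) : M2) * (A (e i) * ((γ : SL(2, ℤ)) : M2))) := by
          rw [h i, Matrix.smul_mul, Matrix.mul_assoc]
      _ = (((ε i * D.δ (e i) * (ε (e.symm (D.σ (e i))))⁻¹ : Γ) : SL(2, ℤ)) : M2) *
            (n • (((ε (e.symm (D.σ (e i))) : SL(2, ℤ)) : M2) * A (D.σ (e i)))) := by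
          rw [D.rel, Matrix.mul_smul, coe_mul', coe_mul']
          simp only [Matrix.mul_assoc]
          rw [coe_inv_mul_cancel]
      _ = (((ε i * D.δ (e i) * (ε (e.symm (D.σ (e i))))⁻¹ : Γ) : SL(2, ℤ)) : M2) *
            (m • A' (e.symm (D.σ (e i)))) := by rw [hk]
      _ = m • ((((ε i * D.δ (e i) * (ε (e.symm (D.σ (e i))))⁻¹ : Γ) : SL(2, ℤ)) : M2) *
            A' (e.symm (D.σ (e i)))) := Matrix.mul_smul _ _ _

theorem of_equiv (hA : IsFam Γ Γ' A) (e : ι' ≃ ι) (ε : ι' → Γ) {m n : ℤ} (hm : m ≠ 0) (hn : n ≠ 0)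
    (h : ∀ i, m • A' i = n • (((ε i : SL(2, ℤ)) : M2) * A (e i))) : IsFam Γ Γ' A' where
  det_ne i := by
    intro h0
    have h1 := congrArg Matrix.det (h i)
    rw [Matrix.det_smul, Matrix.det_smul, h0, mul_zero, Matrix.det_mul] at h1
    have h2 : ((ε i : SL(2, ℤ)) : M2).det = 1 := (ε i : SL(2, ℤ)).2
    rw [h2, one_mul] at h1
    exact mul_ne_zero (pow_ne_zero _ hn) (hA.det_ne _) h1.symm
  ex γ := ⟨hdEquiv e ε hm h (hA.ex γ).some⟩

theorem tr_congr [Fintype ι] [Fintype ι'] (hA : IsFam Γ Γ' A) (hA' : IsFam Γ Γ' A') (e : ι' ≃ ι)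
    (ε : ι' → Γ) {m n : ℤ} (hm : m ≠ 0)
    (h : ∀ i, m • A' i = n • (((ε i : SL(2, ℤ)) : M2) * A (e i))) (c : Additive Γ →+ R) :
    hA'.tr c = hA.tr c := by
  ext γ
  have D := (hA.ex γ).some
  change hA'.tr c (Additive.ofMul γ) = hA.tr c (Additive.ofMul γ)
  rw [hA'.tr_apply c (hdEquiv e ε hm h D), hA.tr_apply c D]
  let σ' : Equiv.Perm ι' := (e.trans D.σ).trans e.symm
  have h1 : ∀ i, c (Additive.ofMul ((hdEquiv e ε hm h D).δ i)) =
      c (Additive.ofMul (ε i)) + c (Additive.ofMul (D.δ (e i))) -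
        c (Additive.ofMul (ε (σ' i))) := by
    intro i
    change c (Additive.ofMul (ε i * D.δ (e i) * (ε (e.symm (D.σ (e i))))⁻¹)) = _
    rw [ofMul_mul, ofMul_mul, ofMul_inv, map_add, map_add, map_neg, sub_eq_add_neg]
    rfl
  simp_rw [h1]
  rw [Finset.sum_sub_distrib, Finset.sum_add_distrib,
    Equiv.sum_comp σ' (fun i => c (Additive.ofMul (ε i))),
    Equiv.sum_comp e (fun i => c (Additive.ofMul (D.δ i)))]
  abel

/-- equivalence without an explicit bijection: `A'` reduced, same cardinality -/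
theorem tr_eq_of_red [Fintype ι] [Fintype ι'] (hA : IsFam Γ Γ' A) (hA' : IsFam Γ Γ' A')
    (red : ∀ (ε : Γ) (i j : ι'), A' i = ((ε : SL(2, ℤ)) : M2) * A' j → i = j)
    (hcard : Fintype.card ι' = Fintype.card ι) {m n : ℤ} (hm : m ≠ 0)
    (h : ∀ i', ∃ (i : ι) (ε : Γ), m • A' i' = n • (((ε : SL(2, ℤ)) : M2) * A i))
    (c : Additive Γ →+ R) : hA'.tr c = hA.tr c := by
  choose φ ε hφ using h
  have hinj : Function.Injective φ := by
    intro i j hij
    apply red (ε i * (ε j)⁻¹) i j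
    apply mat_smul_cancel hm
    calc m • A' i = n • (((ε i : SL(2, ℤ)) : M2) * A (φ j)) := by rw [hφ i, hij]
      _ = (((ε i * (ε j)⁻¹ : Γ) : SL(2, ℤ)) : M2) * (n • (((ε j : SL(2, ℤ)) : M2) * A (φ j))) := by
          rw [Matrix.mul_smul, coe_mul', Matrix.mul_assoc, coe_inv_mul_cancel]
      _ = (((ε i * (ε j)⁻¹ : Γ) : SL(2, ℤ)) : M2) * (m • A' j) := by rw [hφ j]
      _ = m • ((((ε i * (ε j)⁻¹ : Γ) : SL(2, ℤ)) : M2) * A' j) := Matrix.mul_smul _ _ _
  let e : ι' ≃ ι := Equiv.ofBijective φ ((Fintype.bijective_iff_injective_and_card φ).2 ⟨hinj, hcard⟩)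
  exact hA.tr_congr hA' e ε hm hφ c

/-! ### sums -/

theorem sum (hA : IsFam Γ Γ' A) (hB : IsFam Γ Γ' B) : IsFam Γ Γ' (Sum.elim A B) where
  det_ne i := by
    rcases i with i | i
    · exact hA.det_ne i
    · exact hB.det_ne i
  ex γ := by
    obtain ⟨D⟩ := hA.ex γ
    obtain ⟨E⟩ := hB.ex γ
    exact ⟨⟨Equiv.sumCongr D.σ E.σ, Sum.elim D.δ E.δ, fun i => by
      rcases i with i | i
      · exact D.rel i
      · exact E.rel i⟩⟩

theorem tr_sum [Fintype ι] [Fintype κ] (hA : IsFam Γ Γ' A) (hB : IsFam Γ Γ' B)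
    (c : Additive Γ →+ R) : (hA.sum hB).tr c = hA.tr c + hB.tr c := by
  ext γ
  obtain ⟨D⟩ := hA.ex γ
  obtain ⟨E⟩ := hB.ex γ
  let F : HD Γ Γ' (Sum.elim A B) γ := ⟨Equiv.sumCongr D.σ E.σ, Sum.elim D.δ E.δ, fun i => by
      rcases i with i | i
      · exact D.rel i
      · exact E.rel i⟩
  change (hA.sum hB).tr c (Additive.ofMul γ) =
    hA.tr c (Additive.ofMul γ) + hB.tr c (Additive.ofMul γ)
  rw [(hA.sum hB).tr_apply c F, hA.tr_apply c D, hB.tr_apply c E, Fintype.sum_sum_type]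
  rfl

/-- the complement of a subfamily of a reduced family is a family -/
theorem of_sum_right [Finite κ] (hA : IsFam Γ Γ' A) (hAB : IsFam Γ Γ' (Sum.elim A B))
    (red : ∀ (ε : Γ) (i j : ι ⊕ κ),
      Sum.elim A B i = ((ε : SL(2, ℤ)) : M2) * Sum.elim A B j → i = j) : IsFam Γ Γ' B := by
  refine of_red (fun j => hAB.det_ne (Sum.inr j))
    (fun ε i j h => Sum.inr_injective (red ε (Sum.inr i) (Sum.inr j) h)) fun γ j => ?_
  obtain ⟨D⟩ := hAB.ex γ
  have h1 := D.rel (Sum.inr j)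
  rcases hk : D.σ (Sum.inr j) with i | j'
  · exfalso
    rw [hk] at h1
    obtain ⟨E⟩ := hA.ex γ⁻¹
    have h2 := E.rel i
    have h3 : Sum.elim A B (Sum.inr j) =
        (((D.δ (Sum.inr j) * E.δ i : Γ) : SL(2, ℤ)) : M2) * Sum.elim A B (Sum.inl (E.σ i)) := by
      calc Sum.elim A B (Sum.inr j) = Sum.elim A B (Sum.inr j) * ((γ : SL(2, ℤ)) : M2) *
            (((γ⁻¹ : Γ') : SL(2, ℤ)) : M2) := by
            rw [Matrix.mul_assoc, coe_mul_inv, Matrix.mul_one]
        _ = _ := by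
            rw [h1, Matrix.mul_assoc]
            change _ * (A i * _) = _ * A (E.σ i)
            rw [h2, coe_mul', Matrix.mul_assoc]
    exact absurd (red _ _ _ h3) (by simp)
  · rw [hk] at h1
    exact ⟨j', D.δ (Sum.inr j), h1⟩

/-! ### parabolic and torsion elements -/

theorem tr_parabolic [Fintype ι] (h : IsFam Γ Γ' A) {c : Additive Γ →+ R}
    (hc : ∀ δ : Γ, ((δ : SL(2, ℤ)) : M2).trace ^ 2 = 4 → c (Additive.ofMul δ) = 0) (γ : Γ')
    (hγ : ((γ : SL(2, ℤ)) : M2).trace ^ 2 = 4) : h.tr c (Additive.ofMul γ) = 0 := by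
  obtain ⟨D⟩ := h.ex γ
  rw [h.tr_apply c D]
  refine sum_eq_zero_of_forall D c fun n i δ _ hδ => hc δ ?_
  rw [trace_eq_of_conj (h.det_ne i) hδ, SubgroupClass.coe_pow]
  exact trace_pow_sq _ hγ _

theorem pow_rel {X : M2} {γ : Γ'} {δ : Γ}
    (h : X * ((γ : SL(2, ℤ)) : M2) = ((δ : SL(2, ℤ)) : M2) * X) (n : ℕ) :
    X * (((γ ^ n : Γ') : SL(2, ℤ)) : M2) = (((δ ^ n : Γ) : SL(2, ℤ)) : M2) * X := by
  induction n with
  | zero => simp
  | succ n ih =>
    rw [pow_succ, pow_succ, coe_mul', coe_mul', ← Matrix.mul_assoc, ih, Matrix.mul_assoc, h,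
      Matrix.mul_assoc]

theorem tr_torsion [Fintype ι] (h : IsFam Γ Γ' A) {c : Additive Γ →+ R} (N : ℕ)
    (hc : ∀ δ : Γ, δ ^ N = 1 → c (Additive.ofMul δ) = 0) (γ : Γ')
    (hγ : γ ^ N = 1) : h.tr c (Additive.ofMul γ) = 0 := by
  obtain ⟨D⟩ := h.ex γ
  rw [h.tr_apply c D]
  refine sum_eq_zero_of_forall D c fun n i δ _ hδ => hc δ ?_
  have h1 := pow_rel hδ N
  rw [← pow_mul, mul_comm, pow_mul, hγ, one_pow, coe_one', Matrix.mul_one] at h1
  apply coe_inj
  rw [coe_one']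
  apply mat_cancel_right (h.det_ne i)
  rw [← h1, Matrix.one_mul]

end IsFam

/-! ### constant families -/

/-- restriction -/
def resHom (h : Γ' ≤ Γ) {R : Type} [AddCommGroup R] : (Additive Γ →+ R) →+ (Additive Γ' →+ R) :=
  AddMonoidHom.mk' (fun c => c.comp (MonoidHom.toAdditive (Subgroup.inclusion h))) (by
    intro c c'
    rfl)

theorem resHom_apply (h : Γ' ≤ Γ) {R : Type} [AddCommGroup R] (c : Additive Γ →+ R) (γ : Γ') :
    resHom h c (Additive.ofMul γ) = c (Additive.ofMul (Subgroup.inclusion h γ)) := rfl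

theorem isFam_const (ι : Type) (h : Γ' ≤ Γ) : IsFam Γ Γ' (fun _ : ι => (1 : M2)) where
  det_ne _ := by simp
  ex γ := ⟨⟨1, fun _ => Subgroup.inclusion h γ, fun _ => by simp⟩⟩

theorem tr_const (ι : Type) [Fintype ι] (h : Γ' ≤ Γ) {R : Type} [AddCommGroup R]
    (c : Additive Γ →+ R) : (isFam_const ι h).tr c = Fintype.card ι • resHom h c := by
  ext γ
  change (isFam_const ι h).tr c (Additive.ofMul γ) = Fintype.card ι • resHom h c (Additive.ofMul γ)
  rw [(isFam_const ι h).tr_apply c ⟨1, fun _ => Subgroup.inclusion h γ, fun _ => by simp⟩]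
  simp [resHom_apply]

end Fermat.Agent.S41.Hecke
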