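import Fermat.Agent.S41.Hecke.Fam

/-!
# S41 / HECKE : (Z1), off-diagonal terms    key [S41/H-Z1b]

`rw [IsFam.tr_comp]`, then `IsFam.tr_eq_of_red (hA := isFam_T N hq hqN) (hA' := the composite family)`, `m = n = 1`, `card (Unit × Option (Fin q)) = card (Option (Fin q))`.
`b1a2` : existence: `complete_T hq N hqN (matD q * r_i)` (`det = q`; the entry `1 0` of `matD q * X` is `X 1 0` (`hcd_matD_mul`), divisible by `N` since `r_i ∈ A`).
  red: `matD q * r_i = ε * (matD q * r_j)`, `ε ∈ A`.  Put `X = r_i r_j⁻¹` (in `SL(2,ℤ)`): `matD q * X = ε * matD q` (multiply by `r_j⁻¹` on the right);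
  `hcd_matD_mul`, `hcd_mul_matD`: entry `1 0`: `X 1 0 = q * ε 1 0`, `N ∣ ε 1 0`: `X ∈ Γ₀(Nq)`; `rA_inj`.
`b2a1` : the same with `1 * (matU q 0 * r'_i)`; existence: `complete_T`, the entry `1 0` of `matU q 0 * X` is `q * X 1 0`.
  red: `matU q 0 * X = ε * matU q 0`, `X = r'_i r'_j⁻¹ ∈ A`: entry `0 1`: `X 0 1 = q * ε 0 1`; `hrep_mem_Cp`; `rB_inj`.
-/

set_option autoImplicit false

open CongruenceSubgroup ModularCurve.Period Fermat.Agent.S16.Lower Fermat.Agent.S29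
open Fermat.Agent.S16.Lower.LDataAux
open scoped MatrixGroups

noncomputable section

namespace Fermat.Agent.S41.Hecke

variable {N q : ℕ} {R : Type} [AddCommGroup R]

theorem z1b_dvd_10 {L : ℕ} (g : SL(2, ℤ)) (hg : g ∈ Gamma0 L) : (L : ℤ) ∣ g 1 0 :=
  (ZMod.intCast_zmod_eq_zero_iff_dvd _ _).1 (Gamma0_mem.1 hg)

/-- from `B r = ε (B r')` to `B (r r'⁻¹) = ε B` -/
theorem z1b_shift {B E : M2} {r r' : SL(2, ℤ)} (h : B * (r : M2) = E * (B * (r' : M2))) :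
    B * ((r * r'⁻¹ : SL(2, ℤ)) : M2) = E * B := by
  rw [Matrix.SpecialLinearGroup.coe_mul, ← Matrix.mul_assoc, h]
  simp only [Matrix.mul_assoc]
  rw [hswap_mul_inv, Matrix.mul_one]

theorem z1b_matU_mul (q : ℕ) (X : M2) :
    matU q 0 * X = !![X 0 0, X 0 1; (q : ℤ) * X 1 0, (q : ℤ) * X 1 1] := by
  rw [matU]
  ext i j
  fin_cases i <;> fin_cases j <;> simp [Matrix.mul_apply, Fin.sum_univ_two]

theorem z1b_mul_matU (q : ℕ) (X : M2) :
    X * matU q 0 = !![X 0 0, (q : ℤ) * X 0 1; X 1 0, (q : ℤ) * X 1 1] := by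
  rw [matU]
  ext i j
  fin_cases i <;> fin_cases j <;> simp [Matrix.mul_apply, Fin.sum_univ_two, mul_comm]

/-- [S41/H-Z1b] -/
theorem b1a2 (hq : q.Prime) (hqN : ¬ q ∣ N) (c : Additive (Gamma0 N) →+ R) :
    (isFam_b1 hq hqN).tr ((isFam_a2 N q hq.pos).tr c) = (isFam_T N hq hqN).tr c := by
  rw [IsFam.tr_comp]
  refine IsFam.tr_eq_of_red (isFam_T N hq hqN) _ ?_ ?_ (m := 1) (n := 1) one_ne_zero ?_ c
  · rintro ε ⟨⟨⟩, i⟩ ⟨⟨⟩, j⟩ h
    have h1 : matD q * ((rA N q i * (rA N q j)⁻¹ : SL(2, ℤ)) : M2) =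
        ((ε : SL(2, ℤ)) : M2) * matD q := z1b_shift h
    rw [hcd_matD_mul, hcd_mul_matD] at h1
    have h10 := congrFun (congrFun h1 1) 0
    simp only [Matrix.of_apply, Matrix.cons_val_zero, Matrix.cons_val_one] at h10
    have h10' : (rA N q i * (rA N q j)⁻¹ : SL(2, ℤ)) 1 0 = (q : ℤ) * (ε : SL(2, ℤ)) 1 0 := h10
    have hmem : rA N q i * (rA N q j)⁻¹ ∈ Gamma0 (N * q) := by
      rw [Gamma0_mem, ZMod.intCast_zmod_eq_zero_iff_dvd, h10']
      push_cast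
      rw [mul_comm (N : ℤ)]
      exact mul_dvd_mul_left _ (z1b_dvd_10 _ ε.2)
    rw [rA_inj hq hqN hmem]
  · simp
  · rintro ⟨⟨⟩, i⟩
    obtain ⟨k, ε, hk⟩ := complete_T hq N hqN (matD q * famB1 N q i)
      (by rw [Matrix.det_mul, det_matD, det_famB1, mul_one])
      (by
        rw [hcd_matD_mul]
        exact z1b_dvd_10 _ (rA_mem N q i))
    exact ⟨k, ε, by rw [one_smul, one_smul]; exact hk⟩

/-- [S41/H-Z1b] -/
theorem b2a1 (hq : q.Prime) (hqN : ¬ q ∣ N) (c : Additive (Gamma0 N) →+ R) :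
    (isFam_b2 hq hqN).tr ((isFam_a1 N q).tr c) = (isFam_T N hq hqN).tr c := by
  rw [IsFam.tr_comp]
  refine IsFam.tr_eq_of_red (isFam_T N hq hqN) _ ?_ ?_ (m := 1) (n := 1) one_ne_zero ?_ c
  · rintro ε ⟨⟨⟩, i⟩ ⟨⟨⟩, j⟩ h
    have h0 : matU q 0 * ((rB N q i : SL(2, ℤ)) : M2) =
        ((ε : SL(2, ℤ)) : M2) * (matU q 0 * ((rB N q j : SL(2, ℤ)) : M2)) := by
      have h' : (1 : M2) * famB2 N q i = ((ε : SL(2, ℤ)) : M2) * ((1 : M2) * famB2 N q j) := h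
      rw [Matrix.one_mul, Matrix.one_mul] at h'
      exact h'
    have h1 : matU q 0 * ((rB N q i * (rB N q j)⁻¹ : SL(2, ℤ)) : M2) =
        ((ε : SL(2, ℤ)) : M2) * matU q 0 := z1b_shift h0
    rw [z1b_matU_mul, z1b_mul_matU] at h1
    have h01 := congrFun (congrFun h1 0) 1
    simp only [Matrix.of_apply, Matrix.cons_val_zero, Matrix.cons_val_one] at h01
    have h01' : (rB N q i * (rB N q j)⁻¹ : SL(2, ℤ)) 0 1 = (q : ℤ) * (ε : SL(2, ℤ)) 0 1 := h01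
    have hmem : rB N q i * (rB N q j)⁻¹ ∈ Cp N q := by
      rw [hrep_mem_Cp N q hq.pos]
      exact ⟨(Gamma0 N).mul_mem (rB_mem N q i) ((Gamma0 N).inv_mem (rB_mem N q j)),
        ⟨_, h01'⟩⟩
    rw [rB_inj hq hqN hmem]
  · simp
  · rintro ⟨⟨⟩, i⟩
    obtain ⟨k, ε, hk⟩ := complete_T hq N hqN (famB2 N q i) (det_famB2 i)
      (by
        rw [famB2, z1b_matU_mul]
        exact Dvd.dvd.mul_left (z1b_dvd_10 _ (rB_mem N q i)) _)
    refine ⟨k, ε, ?_⟩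
    rw [one_smul, one_smul]
    show (1 : M2) * famB2 N q i = _
    rw [Matrix.one_mul]
    exact hk

end Fermat.Agent.S41.Hecke
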