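import Fermat.Agent.S41.Hecke.Fam

/-!
# S41 / HECKE : (Z1), diagonal terms    key [S41/H-Z1a]

`rw [IsFam.tr_comp]`, then `IsFam.tr_congr`.
`b1a1` : family `(u,i) ↦ 1 * r_i`, `r_i ∈ A`: `tr_congr` with the constant family `isFam_const (Unit × Option (Fin q)) le_rfl`
  (`e = Equiv.refl _`, `ε (u,i) = ⟨rA N q i, rA_mem N q i⟩`, `m = n = 1`), then `tr_const`, `Fintype.card (Unit × Option (Fin q)) = q + 1`, `resHom le_rfl c = c` (ext; rfl).
`b2a2` : family `(u,i) ↦ matD q * (matU q 0 * r'_i) = q • r'_i` (`hswap_matD_mul_matU`): the same with `m = 1`, `n = q`, `ε (u,i) = ⟨rB N q i, rB_mem N q i⟩`.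
-/

set_option autoImplicit false

open CongruenceSubgroup ModularCurve.Period Fermat.Agent.S16.Lower Fermat.Agent.S29
open Fermat.Agent.S16.Lower.LDataAux
open scoped MatrixGroups

noncomputable section

namespace Fermat.Agent.S41.Hecke

variable {N q : ℕ} {R : Type} [AddCommGroup R]

theorem z1a_const (c : Additive (Gamma0 N) →+ R) :
    (isFam_const (Γ := Gamma0 N) (Γ' := Gamma0 N) (Unit × Option (Fin q)) le_rfl).tr c =
      ((q : ℤ) + 1) • c := by
  rw [tr_const _ (le_refl (Gamma0 N))]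
  have h1 : Fintype.card (Unit × Option (Fin q)) = q + 1 := by
    simp
  have h2 : resHom (le_refl (Gamma0 N)) c = c := by
    ext γ
    rfl
  rw [h1, h2, ← natCast_zsmul]
  push_cast
  rfl

/-- [S41/H-Z1a] -/
theorem b1a1 (hq : q.Prime) (hqN : ¬ q ∣ N) (c : Additive (Gamma0 N) →+ R) :
    (isFam_b1 hq hqN).tr ((isFam_a1 N q).tr c) = ((q : ℤ) + 1) • c := by
  rw [IsFam.tr_comp, ← z1a_const (q := q) c]
  refine IsFam.tr_congr _ _ (Equiv.refl _) (fun x => ⟨rA N q x.2, rA_mem N q x.2⟩)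
    (m := 1) (n := 1) one_ne_zero ?_ c
  rintro ⟨u, i⟩
  simp only [one_smul, Matrix.one_mul, Matrix.mul_one]
  rfl

/-- [S41/H-Z1a] -/
theorem b2a2 (hq : q.Prime) (hqN : ¬ q ∣ N) (c : Additive (Gamma0 N) →+ R) :
    (isFam_b2 hq hqN).tr ((isFam_a2 N q hq.pos).tr c) = ((q : ℤ) + 1) • c := by
  rw [IsFam.tr_comp, ← z1a_const (q := q) c]
  refine IsFam.tr_congr _ _ (Equiv.refl _) (fun x => ⟨rB N q x.2, rB_mem N q x.2⟩)
    (m := 1) (n := q) one_ne_zero ?_ c
  rintro ⟨u, i⟩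
  simp only [one_smul, Matrix.mul_one]
  show matD q * (matU q 0 * ((rB N q i : SL(2, ℤ)) : M2)) = _
  rw [← Matrix.mul_assoc, hswap_matD_mul_matU, Matrix.smul_mul, Matrix.one_mul]

end Fermat.Agent.S41.Hecke
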