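import Fermat.Agent.S41.Hecke.Transfer
import Fermat.Agent.S41.IfHecke

/-!
# S41 / HECKE / (Z2) : `T_ℓ` commutes with the four degeneracy maps     (helper22)

Everything lives in the namespace `Fermat.Agent.S41.Hecke.Z2`.

* `dec` : an integral matrix of determinant `ℓ` with `M ∣ c` lies in `Γ₀(M) · matT ℓ i`.
* `fT`, `fa1`, `fa2`, `fb1`, `fb2` : the `IsFam` statements of the families.
* `tr_a1_T`, `tr_a2_T`, `tr_b1_T`, `tr_b2_T` : the commutations for any coefficient group.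
* `a1_T`, `a2_T`, `b1_T`, `b2_T` : the fields of `Deg`, for arbitrary maps with the right
  characterisations.
-/

set_option autoImplicit false

open CongruenceSubgroup ModularGroup ModularCurve.Period
open Fermat.Agent.S16.Lower Fermat.Agent.S16.Lower.LDataAux Fermat.Agent.S29
open scoped MatrixGroups

noncomputable section

namespace Fermat.Agent.S41.Hecke.Z2

/-! ### decomposition of matrices of determinant `ℓ` -/

theorem det_matT {ℓ : ℕ} (i : Option (Fin ℓ)) : (matT ℓ i).det = ℓ := by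
  rcases i with _ | j
  · simp [matT, matD, Matrix.det_fin_two_of]
  · simp [matT, matU, Matrix.det_fin_two_of]

theorem matT_red {ℓ : ℕ} (hℓ : ℓ.Prime) (ε : SL(2, ℤ)) (i i₂ : Option (Fin ℓ))
    (h : matT ℓ i = (ε : M2) * matT ℓ i₂) : i = i₂ := by
  cases i with
  | none =>
    cases i₂ with
    | none => rfl
    | some j₂ => exact absurd h (matD_ne_matU hℓ ε j₂)
  | some j =>
    cases i₂ with
    | none => exact absurd h (matU_ne_matD hℓ ε j)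
    | some j₂ => rw [matU_inj ε j j₂ h]

theorem dec {M ℓ : ℕ} (hℓ : ℓ.Prime) (hM : ¬ ℓ ∣ M) (a b c d : ℤ) (hdet : a * d - b * c = ℓ)
    (hc : (M : ℤ) ∣ c) :
    ∃ (i : Option (Fin ℓ)) (δ : Gamma0 M), !![a, b; c, d] = ((δ : SL(2, ℤ)) : M2) * matT ℓ i := by
  have hℓZ : Prime (ℓ : ℤ) := Nat.prime_iff_prime_int.mp hℓ
  have hℓ0 : (ℓ : ℤ) ≠ 0 := hℓZ.ne_zero
  by_cases ha : (ℓ : ℤ) ∣ a
  · by_cases hc' : (ℓ : ℤ) ∣ c
    · obtain ⟨a₁, rfl⟩ := ha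
      obtain ⟨c₁, rfl⟩ := hc'
      have hcop : IsCoprime (M : ℤ) (ℓ : ℤ) := by
        rw [Nat.isCoprime_iff_coprime, Nat.coprime_comm]
        exact (Nat.Prime.coprime_iff_not_dvd hℓ).mpr hM
      have hMc : (M : ℤ) ∣ c₁ := hcop.dvd_of_dvd_mul_left hc
      have hdet' : a₁ * d - b * c₁ = 1 := by
        apply mul_left_cancel₀ hℓ0
        linear_combination hdet
      refine ⟨none, mkG0 M a₁ b c₁ d hdet' hMc, ?_⟩
      rw [coe_mkG0]
      show _ = _ * matD ℓ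
      rw [mul_matD, mul_comm a₁, mul_comm c₁]
    · obtain ⟨j, t, ht⟩ := exists_fin_congr hℓ c d hc'
      have h1 : (ℓ : ℤ) ∣ c * (b - (j : ℕ) * a) := by
        refine ⟨a * t - 1, ?_⟩
        linear_combination -hdet + a * ht
      obtain ⟨s, hs⟩ := (hℓZ.dvd_or_dvd h1).resolve_left hc'
      have hdet' : a * t - s * c = 1 := by
        apply mul_left_cancel₀ hℓ0
        linear_combination hdet - a * ht + c * hs
      refine ⟨some j, mkG0 M a s c t hdet' hc, ?_⟩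
      rw [coe_mkG0]
      show _ = _ * matU ℓ j
      rw [mul_matU]
      have e1 : b = a * (j : ℕ) + s * ℓ := by linear_combination hs
      have e2 : d = c * (j : ℕ) + t * ℓ := by linear_combination ht
      rw [← e1, ← e2]
  · obtain ⟨j, s, hs⟩ := exists_fin_congr hℓ a b ha
    have h1 : (ℓ : ℤ) ∣ a * (d - (j : ℕ) * c) := by
      refine ⟨1 + c * s, ?_⟩
      linear_combination hdet + c * hs
    obtain ⟨t, ht⟩ := (hℓZ.dvd_or_dvd h1).resolve_left ha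
    have hdet' : a * t - s * c = 1 := by
      apply mul_left_cancel₀ hℓ0
      linear_combination hdet - a * ht + c * hs
    refine ⟨some j, mkG0 M a s c t hdet' hc, ?_⟩
    rw [coe_mkG0]
    show _ = _ * matU ℓ j
    rw [mul_matU]
    have e1 : b = a * (j : ℕ) + s * ℓ := by linear_combination hs
    have e2 : d = c * (j : ℕ) + t * ℓ := by linear_combination ht
    rw [← e1, ← e2]

theorem dec' {M ℓ : ℕ} (hℓ : ℓ.Prime) (hM : ¬ ℓ ∣ M) (X : M2) (hdet : X.det = ℓ)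
    (hc : (M : ℤ) ∣ X 1 0) :
    ∃ (i : Option (Fin ℓ)) (δ : Gamma0 M), X = ((δ : SL(2, ℤ)) : M2) * matT ℓ i := by
  rw [Matrix.det_fin_two] at hdet
  obtain ⟨i, δ, h⟩ := dec hℓ hM (X 0 0) (X 0 1) (X 1 0) (X 1 1) hdet hc
  exact ⟨i, δ, (Matrix.eta_fin_two X).trans h⟩

/-! ### the families -/

theorem fT (M : ℕ) {ℓ : ℕ} (hℓ : ℓ.Prime) (h : ¬ ℓ ∣ M) :
    IsFam (Gamma0 M) (Gamma0 M) (matT ℓ) where
  det_ne i := by
    rw [det_matT]
    exact_mod_cast hℓ.ne_zero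
  ex γ := (nonempty_HData_T hℓ h γ).map HD.ofHData

theorem fa1 (N q : ℕ) : IsFam (Gamma0 N) (Gamma0 (N * q)) (fun _ : Unit => (1 : M2)) :=
  isFam_const Unit (Gamma0_mul_le N q)

theorem det_matD (q : ℕ) : (matD q).det = q := by
  simp [matD, Matrix.det_fin_two_of]

theorem det_matU (q j : ℕ) : (matU q j).det = q := by
  simp [matU, Matrix.det_fin_two_of]

theorem fa2 (N q : ℕ) (hq : 0 < q) :
    IsFam (Gamma0 N) (Gamma0 (N * q)) (fun _ : Unit => matD q) where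
  det_ne _ := by
    rw [det_matD]
    exact_mod_cast hq.ne'
  ex γ := ⟨⟨1, fun _ => cD N q γ, fun _ => cD_spec N q hq γ⟩⟩

theorem sl_mul_inv (g : SL(2, ℤ)) : (g : M2) * ((g⁻¹ : SL(2, ℤ)) : M2) = 1 := by
  rw [← Matrix.SpecialLinearGroup.coe_mul, mul_inv_cancel, Matrix.SpecialLinearGroup.coe_one]

theorem sl_inv_mul (g : SL(2, ℤ)) : ((g⁻¹ : SL(2, ℤ)) : M2) * (g : M2) = 1 := by
  rw [← Matrix.SpecialLinearGroup.coe_mul, inv_mul_cancel, Matrix.SpecialLinearGroup.coe_one]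

/-- `rA` is reduced -/
theorem rA_red (N q : ℕ) (hq : q.Prime) (hqN : ¬ q ∣ N) (i j : Option (Fin q))
    (h : rA N q i * (rA N q j)⁻¹ ∈ Gamma0 (N * q)) : i = j := by
  obtain ⟨k, -, hk⟩ := rA_unique N q hq hqN (rA N q i) (rA_mem N q i)
  rw [hk i (by beta_reduce; rw [mul_inv_cancel]; exact one_mem _), hk j h]

/-- `rB` is reduced -/
theorem rB_red (N q : ℕ) (hq : q.Prime) (hqN : ¬ q ∣ N) (i j : Option (Fin q))
    (h : rB N q i * (rB N q j)⁻¹ ∈ Cp N q) : i = j := by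
  obtain ⟨k, -, hk⟩ := rB_unique N q hq hqN (rB N q i) (rB_mem N q i)
  rw [hk i (by beta_reduce; rw [mul_inv_cancel]; exact one_mem _), hk j h]

/-- every element of `A` is `ε r_i` -/
theorem rA_dec (N q : ℕ) (hq : q.Prime) (hqN : ¬ q ∣ N) (g : Gamma0 N) :
    ∃ (i : Option (Fin q)) (ε : Gamma0 (N * q)),
      ((g : SL(2, ℤ)) : M2) = ((ε : SL(2, ℤ)) : M2) * famB1 N q i := by
  obtain ⟨i, hi, -⟩ := rA_unique N q hq hqN g g.2
  refine ⟨i, ⟨_, hi⟩, ?_⟩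
  show _ = (((g : SL(2, ℤ)) * (rA N q i)⁻¹ : SL(2, ℤ)) : M2) * ((rA N q i : SL(2, ℤ)) : M2)
  rw [← Matrix.SpecialLinearGroup.coe_mul, inv_mul_cancel_right]

/-- `D' g = ε D'` for `g ∈ C'` -/
theorem Cp_dual (N q : ℕ) (hq : 0 < q) (g : SL(2, ℤ)) (hg : g ∈ Cp N q) :
    ∃ ε : Gamma0 (N * q), matU q 0 * (g : M2) = ((ε : SL(2, ℤ)) : M2) * matU q 0 := by
  obtain ⟨ε, rfl⟩ := hg
  exact ⟨ε, (hswap_dual hq (cD_spec N q hq ε)).symm⟩

theorem matU_cancel_left {q : ℕ} (hq : 0 < q) {X Y : M2} (h : matU q 0 * X = matU q 0 * Y) :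
    X = Y := by
  apply hswap_smul_cancel hq
  rw [← Matrix.one_mul X, ← Matrix.one_mul Y, ← Matrix.smul_mul, ← Matrix.smul_mul,
    ← hswap_matD_mul_matU, Matrix.mul_assoc, Matrix.mul_assoc, h]

/-- converse of `Cp_dual` -/
theorem mem_Cp_of_dual (N q : ℕ) (hq : 0 < q) (g : SL(2, ℤ)) (ε : Gamma0 (N * q))
    (h : matU q 0 * (g : M2) = ((ε : SL(2, ℤ)) : M2) * matU q 0) : g ∈ Cp N q := by
  refine ⟨ε, ?_⟩
  apply Subtype.ext
  apply matU_cancel_left hq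
  rw [h]
  exact (hswap_dual hq (cD_spec N q hq ε)).symm

/-- every element of `A` is `g r'_i`, `D' g = ε D'` -/
theorem rB_dec (N q : ℕ) (hq : q.Prime) (hqN : ¬ q ∣ N) (g : Gamma0 N) :
    ∃ (i : Option (Fin q)) (ε : Gamma0 (N * q)),
      matU q 0 * ((g : SL(2, ℤ)) : M2) = ((ε : SL(2, ℤ)) : M2) * famB2 N q i := by
  obtain ⟨i, hi, -⟩ := rB_unique N q hq hqN g g.2
  obtain ⟨ε, hε⟩ := Cp_dual N q hq.pos _ hi
  refine ⟨i, ε, ?_⟩
  show _ = _ * (matU q 0 * ((rB N q i : SL(2, ℤ)) : M2))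
  rw [← Matrix.mul_assoc, ← hε, Matrix.mul_assoc, ← Matrix.SpecialLinearGroup.coe_mul,
    inv_mul_cancel_right]

theorem famB1_red (N q : ℕ) (hq : q.Prime) (hqN : ¬ q ∣ N) (ε : Gamma0 (N * q))
    (i j : Option (Fin q)) (h : famB1 N q i = ((ε : SL(2, ℤ)) : M2) * famB1 N q j) : i = j := by
  apply rA_red N q hq hqN
  have : rA N q i * (rA N q j)⁻¹ = (ε : SL(2, ℤ)) := by
    apply Subtype.ext
    rw [Matrix.SpecialLinearGroup.coe_mul]
    change famB1 N q i * _ = _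
    rw [h, Matrix.mul_assoc]
    change _ * (((rA N q j : SL(2, ℤ)) : M2) * _) = _
    rw [sl_mul_inv, Matrix.mul_one]
  rw [this]
  exact ε.2

theorem famB2_red (N q : ℕ) (hq : q.Prime) (hqN : ¬ q ∣ N) (ε : Gamma0 (N * q))
    (i j : Option (Fin q)) (h : famB2 N q i = ((ε : SL(2, ℤ)) : M2) * famB2 N q j) : i = j := by
  apply rB_red N q hq hqN
  apply mem_Cp_of_dual N q hq.pos _ ε
  rw [Matrix.SpecialLinearGroup.coe_mul, ← Matrix.mul_assoc]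
  change famB2 N q i * _ = _
  rw [h, Matrix.mul_assoc]
  change _ * (matU q 0 * ((rB N q j : SL(2, ℤ)) : M2) * _) = _
  rw [Matrix.mul_assoc, sl_mul_inv, Matrix.mul_one]

theorem fb1 (N q : ℕ) (hq : q.Prime) (hqN : ¬ q ∣ N) :
    IsFam (Gamma0 (N * q)) (Gamma0 N) (famB1 N q) := by
  refine IsFam.of_red ?_ (famB1_red N q hq hqN) ?_
  · intro i
    show ((rA N q i : SL(2, ℤ)) : M2).det ≠ 0
    rw [Matrix.SpecialLinearGroup.det_coe]
    exact one_ne_zero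
  · intro γ i
    obtain ⟨j, δ, h⟩ := rA_dec N q hq hqN (⟨rA N q i, rA_mem N q i⟩ * γ)
    exact ⟨j, δ, by rw [← h, coe_mul']; rfl⟩

theorem fb2 (N q : ℕ) (hq : q.Prime) (hqN : ¬ q ∣ N) :
    IsFam (Gamma0 (N * q)) (Gamma0 N) (famB2 N q) := by
  refine IsFam.of_red ?_ (famB2_red N q hq hqN) ?_
  · intro i
    show (matU q 0 * ((rB N q i : SL(2, ℤ)) : M2)).det ≠ 0
    rw [Matrix.det_mul, Matrix.SpecialLinearGroup.det_coe, mul_one, det_matU]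
    exact_mod_cast hq.ne_zero
  · intro γ i
    obtain ⟨j, δ, h⟩ := rB_dec N q hq hqN (⟨rB N q i, rB_mem N q i⟩ * γ)
    refine ⟨j, δ, ?_⟩
    rw [← h, coe_mul', ← Matrix.mul_assoc]
    rfl

/-! ### entries of `matT` -/

theorem matT_10 {ℓ : ℕ} (i : Option (Fin ℓ)) : matT ℓ i 1 0 = 0 := by
  rcases i with _ | j <;> simp [matT, matD, matU]

theorem isCoprime_of_not_dvd {ℓ M : ℕ} (hℓ : ℓ.Prime) (h : ¬ ℓ ∣ M) : IsCoprime (ℓ : ℤ) (M : ℤ) :=
  Nat.isCoprime_iff_coprime.mpr ((Nat.Prime.coprime_iff_not_dvd hℓ).mpr h)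

theorem matT_11 {ℓ M : ℕ} (hℓ : ℓ.Prime) (h : ¬ ℓ ∣ M) (i : Option (Fin ℓ)) :
    IsCoprime (matT ℓ i 1 1) (M : ℤ) := by
  rcases i with _ | j
  · simpa [matT, matD] using isCoprime_one_left
  · simpa [matT, matU] using isCoprime_of_not_dvd hℓ h

theorem matT_00 {ℓ M : ℕ} (hℓ : ℓ.Prime) (h : ¬ ℓ ∣ M) (i : Option (Fin ℓ)) :
    IsCoprime (matT ℓ i 0 0) (M : ℤ) := by
  rcases i with _ | j
  · simpa [matT, matD] using isCoprime_of_not_dvd hℓ h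
  · simpa [matT, matU] using isCoprime_one_left

theorem mul_10 (X Y : M2) : (X * Y) 1 0 = X 1 0 * Y 0 0 + X 1 1 * Y 1 0 := by
  rw [Matrix.mul_apply, Fin.sum_univ_two]

theorem mul_01 (X Y : M2) : (X * Y) 0 1 = X 0 0 * Y 0 1 + X 0 1 * Y 1 1 := by
  rw [Matrix.mul_apply, Fin.sum_univ_two]

variable {R : Type} [AddCommGroup R]

/-! ### (Z2) for `a1` -/

theorem tr_a1_T (N q : ℕ) {ℓ : ℕ} (hℓ : ℓ.Prime) (h : ¬ ℓ ∣ N) (h' : ¬ ℓ ∣ N * q)
    (c : Additive (Gamma0 N) →+ R) :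
    (fa1 N q).tr ((fT N hℓ h).tr c) = (fT (N * q) hℓ h').tr ((fa1 N q).tr c) := by
  rw [IsFam.tr_comp, IsFam.tr_comp]
  refine IsFam.tr_congr _ _ (Equiv.prodComm _ _) (fun _ => 1) (m := 1) (n := 1) one_ne_zero ?_ c
  intro i
  simp

/-! ### (Z2) for `a2` -/

theorem tr_a2_T (N q : ℕ) (hq : 0 < q) {ℓ : ℕ} (hℓ : ℓ.Prime) (h : ¬ ℓ ∣ N) (h' : ¬ ℓ ∣ N * q)
    (c : Additive (Gamma0 N) →+ R) :
    (fa2 N q hq).tr ((fT N hℓ h).tr c) = (fT (N * q) hℓ h').tr ((fa2 N q hq).tr c) := by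
  rw [IsFam.tr_comp, IsFam.tr_comp]
  have hdq : (matD q).det ≠ 0 := by
    rw [det_matD]
    exact_mod_cast hq.ne'
  have hℓq : ¬ (ℓ : ℤ) ∣ (q : ℤ) := fun hh =>
    h' (Dvd.dvd.mul_left (Int.natCast_dvd_natCast.mp hh) N)
  refine IsFam.tr_eq_of_red _ _ ?_ ?_ (m := 1) (n := 1) one_ne_zero ?_ c
  · rintro ε ⟨i, ⟨⟩⟩ ⟨j, ⟨⟩⟩ hh
    have h1 : matT ℓ i = ((ε : SL(2, ℤ)) : M2) * matT ℓ j := by
      apply mat_cancel_right hdq
      rw [Matrix.mul_assoc]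
      exact hh
    rw [matT_red hℓ _ i j h1]
  · rw [Fintype.card_prod, Fintype.card_prod, mul_comm]
  · rintro ⟨i, ⟨⟩⟩
    rcases i with _ | j
    · refine ⟨((), none), 1, ?_⟩
      simp only [one_smul, coe_one', Matrix.one_mul]
      show matD ℓ * matD q = matD q * matD ℓ
      simp [matD, mul_comm]
    · obtain ⟨j', t, ht⟩ := exists_fin_congr hℓ (q : ℤ) ((j : ℕ) : ℤ) hℓq
      refine ⟨((), some j'), mkG0 N 1 t 0 1 (by ring) (dvd_zero _), ?_⟩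
      simp only [one_smul]
      rw [coe_mkG0]
      show matU ℓ j * matD q = _ * (matD q * matU ℓ j')
      have e : ((j : ℕ) : ℤ) = q * (j' : ℕ) + t * ℓ := by linear_combination ht
      simp only [matU, matD]
      rw [e]
      ext a b
      fin_cases a <;> fin_cases b <;> simp [Matrix.mul_apply, Fin.sum_univ_two]

/-! ### (Z2) for `b1` -/

theorem det_famB1 (N q : ℕ) (i : Option (Fin q)) : (famB1 N q i).det = 1 :=
  Matrix.SpecialLinearGroup.det_coe _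

theorem det_famB2 (N q : ℕ) (i : Option (Fin q)) : (famB2 N q i).det = q := by
  show (matU q 0 * ((rB N q i : SL(2, ℤ)) : M2)).det = q
  rw [Matrix.det_mul, Matrix.SpecialLinearGroup.det_coe, mul_one, det_matU]

theorem tr_b1_T (N q : ℕ) (hq : q.Prime) (hqN : ¬ q ∣ N) {ℓ : ℕ} (hℓ : ℓ.Prime) (h : ¬ ℓ ∣ N)
    (h' : ¬ ℓ ∣ N * q) (y : Additive (Gamma0 (N * q)) →+ R) :
    (fb1 N q hq hqN).tr ((fT (N * q) hℓ h').tr y) = (fT N hℓ h).tr ((fb1 N q hq hqN).tr y) := by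
  rw [IsFam.tr_comp, IsFam.tr_comp]
  refine IsFam.tr_eq_of_red _ _ ?_ ?_ (m := 1) (n := 1) one_ne_zero ?_ y
  · rintro ε ⟨j, i⟩ ⟨j', i'⟩ hh
    change matT ℓ j * famB1 N q i = ((ε : SL(2, ℤ)) : M2) * (matT ℓ j' * famB1 N q i') at hh
    -- `g = r_i r_i'⁻¹`
    have h1 : matT ℓ j * ((rA N q i * (rA N q i')⁻¹ : SL(2, ℤ)) : M2) =
        ((ε : SL(2, ℤ)) : M2) * matT ℓ j' := by
      rw [Matrix.SpecialLinearGroup.coe_mul, ← Matrix.mul_assoc]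
      change matT ℓ j * famB1 N q i * _ = _
      rw [hh]
      simp only [Matrix.mul_assoc]
      change _ * (_ * (((rA N q i' : SL(2, ℤ)) : M2) * _)) = _
      rw [sl_mul_inv, Matrix.mul_one]
    have h2 := congrFun (congrFun h1 1) 0
    rw [mul_10, mul_10, matT_10, matT_10, zero_mul, zero_add, mul_zero, add_zero] at h2
    have h3 : ((N * q : ℕ) : ℤ) ∣ matT ℓ j 1 1 * (rA N q i * (rA N q i')⁻¹ : SL(2, ℤ)) 1 0 := by
      rw [h2]
      exact Dvd.dvd.mul_right (dvd_c ε) _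
    have h4 : rA N q i * (rA N q i')⁻¹ ∈ Gamma0 (N * q) := by
      rw [Gamma0_mem, ZMod.intCast_zmod_eq_zero_iff_dvd]
      exact (matT_11 hℓ h' j).symm.dvd_of_dvd_mul_left h3
    obtain rfl := rA_red N q hq hqN i i' h4
    have h5 : matT ℓ j = ((ε : SL(2, ℤ)) : M2) * matT ℓ j' := by
      apply mat_cancel_right (B := famB1 N q i) (by rw [det_famB1]; exact one_ne_zero)
      rw [Matrix.mul_assoc]
      exact hh
    rw [matT_red hℓ _ j j' h5]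
  · rw [Fintype.card_prod, Fintype.card_prod, mul_comm]
  · rintro ⟨j, i⟩
    have hdet : (matT ℓ j * famB1 N q i).det = ℓ := by
      rw [Matrix.det_mul, det_famB1, det_matT, mul_one]
    have hc : (N : ℤ) ∣ (matT ℓ j * famB1 N q i) 1 0 := by
      rw [mul_10, matT_10, zero_mul, zero_add]
      exact Dvd.dvd.mul_left (dvd_c (⟨rA N q i, rA_mem N q i⟩ : Gamma0 N)) _
    obtain ⟨j', δ, hδ⟩ := dec' hℓ h _ hdet hc
    obtain ⟨i', ε, hε⟩ := rA_dec N q hq hqN δ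
    refine ⟨(i', j'), ε, ?_⟩
    simp only [one_smul]
    rw [hδ, hε, Matrix.mul_assoc]

/-! ### (Z2) for `b2` -/

theorem matT_mul_matU (ℓ q : ℕ) (j : Option (Fin ℓ)) :
    ∃ Z : M2, matT ℓ j * matU q 0 = matU q 0 * Z ∧ Z.det = ℓ ∧ Z 1 0 = 0 := by
  rcases j with _ | j
  · refine ⟨matD ℓ, ?_, det_matD ℓ, by simp [matD]⟩
    show matD ℓ * matU q 0 = _
    simp [matD, matU]
  · refine ⟨!![1, q * ((j : ℕ) : ℤ); 0, ℓ], ?_, by simp [Matrix.det_fin_two_of], by simp⟩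
    show matU ℓ j * matU q 0 = _
    simp [matU, mul_comm]

theorem tr_b2_T (N q : ℕ) (hq : q.Prime) (hqN : ¬ q ∣ N) {ℓ : ℕ} (hℓ : ℓ.Prime) (h : ¬ ℓ ∣ N)
    (h' : ¬ ℓ ∣ N * q) (y : Additive (Gamma0 (N * q)) →+ R) :
    (fb2 N q hq hqN).tr ((fT (N * q) hℓ h').tr y) = (fT N hℓ h).tr ((fb2 N q hq hqN).tr y) := by
  rw [IsFam.tr_comp, IsFam.tr_comp]
  have hℓq : ¬ ℓ ∣ q := fun hh => h' (Dvd.dvd.mul_left hh N)
  refine IsFam.tr_eq_of_red _ _ ?_ ?_ (m := 1) (n := 1) one_ne_zero ?_ y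
  · rintro ε ⟨j, i⟩ ⟨j', i'⟩ hh
    change matT ℓ j * famB2 N q i = ((ε : SL(2, ℤ)) : M2) * (matT ℓ j' * famB2 N q i') at hh
    have h1 : matT ℓ j * (matU q 0 * ((rB N q i * (rB N q i')⁻¹ : SL(2, ℤ)) : M2)) =
        ((ε : SL(2, ℤ)) : M2) * matT ℓ j' * matU q 0 := by
      rw [Matrix.SpecialLinearGroup.coe_mul, ← Matrix.mul_assoc (matU q 0), ← Matrix.mul_assoc]
      change matT ℓ j * famB2 N q i * _ = _
      rw [hh]
      change _ * (_ * (matU q 0 * ((rB N q i' : SL(2, ℤ)) : M2))) * _ = _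
      simp only [Matrix.mul_assoc]
      rw [sl_mul_inv, Matrix.mul_one]
    have h2 := congrFun (congrFun h1 0) 1
    rw [mul_01, mul_01 _ (matU q 0)] at h2
    have e1 : (matU q 0 * ((rB N q i * (rB N q i')⁻¹ : SL(2, ℤ)) : M2)) 0 1 =
        (rB N q i * (rB N q i')⁻¹ : SL(2, ℤ)) 0 1 := by
      rw [mul_01]
      simp [matU]
    have e2 : (matU q 0 * ((rB N q i * (rB N q i')⁻¹ : SL(2, ℤ)) : M2)) 1 1 =
        q * (rB N q i * (rB N q i')⁻¹ : SL(2, ℤ)) 1 1 := by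
      rw [Matrix.mul_apply, Fin.sum_univ_two]
      simp [matU]
    have e3 : matU q 0 0 1 = 0 := by simp [matU]
    have e4 : matU q 0 1 1 = q := by simp [matU]
    rw [e1, e2, e3, e4, mul_zero, zero_add] at h2
    have h3 : (q : ℤ) ∣ matT ℓ j 0 0 * (rB N q i * (rB N q i')⁻¹ : SL(2, ℤ)) 0 1 := by
      refine ⟨(((ε : SL(2, ℤ)) : M2) * matT ℓ j') 0 1 -
        matT ℓ j 0 1 * (rB N q i * (rB N q i')⁻¹ : SL(2, ℤ)) 1 1, ?_⟩
      linear_combination h2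
    have h4 : rB N q i * (rB N q i')⁻¹ ∈ Cp N q := by
      rw [hrep_mem_Cp N q hq.pos]
      exact ⟨(Gamma0 N).mul_mem (rB_mem N q i) ((Gamma0 N).inv_mem (rB_mem N q i')),
        (matT_00 hℓ hℓq j).symm.dvd_of_dvd_mul_left h3⟩
    obtain rfl := rB_red N q hq hqN i i' h4
    have h5 : matT ℓ j = ((ε : SL(2, ℤ)) : M2) * matT ℓ j' := by
      apply mat_cancel_right (B := famB2 N q i)
        (by rw [det_famB2]; exact_mod_cast hq.ne_zero)
      rw [Matrix.mul_assoc]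
      exact hh
    rw [matT_red hℓ _ j j' h5]
  · rw [Fintype.card_prod, Fintype.card_prod, mul_comm]
  · rintro ⟨j, i⟩
    obtain ⟨Z, hZ, hZdet, hZ10⟩ := matT_mul_matU ℓ q j
    have hdet : (Z * ((rB N q i : SL(2, ℤ)) : M2)).det = ℓ := by
      rw [Matrix.det_mul, Matrix.SpecialLinearGroup.det_coe, hZdet, mul_one]
    have hc : (N : ℤ) ∣ (Z * ((rB N q i : SL(2, ℤ)) : M2)) 1 0 := by
      rw [mul_10, hZ10, zero_mul, zero_add]
      exact Dvd.dvd.mul_left (dvd_c (⟨rB N q i, rB_mem N q i⟩ : Gamma0 N)) _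
    obtain ⟨j', δ, hδ⟩ := dec' hℓ h _ hdet hc
    obtain ⟨i', ε, hε⟩ := rB_dec N q hq hqN δ
    refine ⟨(i', j'), ε, ?_⟩
    simp only [one_smul]
    show matT ℓ j * (matU q 0 * ((rB N q i : SL(2, ℤ)) : M2)) = _
    rw [← Matrix.mul_assoc, hZ, Matrix.mul_assoc, hδ, ← Matrix.mul_assoc, hε, Matrix.mul_assoc]

/-! ### the fields of `Deg` -/

theorem heckeX_eq_tr (M : ℕ) [NeZero M] {ℓ : ℕ} (hℓ : ℓ.Prime) (h : ¬ ℓ ∣ M) (c : XN M) :
    (heckeX M hℓ h c : Additive (Gamma0 M) →+ ℤ) =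
      (fT M hℓ h).tr (c : Additive (Gamma0 M) →+ ℤ) :=
  (fT M hℓ h).eq_tr ((isTr_iff_isTransfer _ _ _).2 (isTransfer_heckeX M hℓ h c))

theorem eq_tr_a1 {N q : ℕ} {c : Additive (Gamma0 N) →+ R} {c' : Additive (Gamma0 (N * q)) →+ R}
    (h : ∀ γ : Gamma0 (N * q), c' (Additive.ofMul γ) = c (Additive.ofMul (cI N q γ))) :
    c' = (fa1 N q).tr c := by
  refine (fa1 N q).eq_tr fun γ D => ?_
  rw [h γ, Fintype.sum_unique]
  congr 2
  apply coe_inj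
  have := D.rel default
  rw [Matrix.one_mul, Matrix.mul_one] at this
  exact this

theorem eq_tr_a2 {N q : ℕ} (hq : 0 < q) {c : Additive (Gamma0 N) →+ R}
    {c' : Additive (Gamma0 (N * q)) →+ R}
    (h : ∀ γ : Gamma0 (N * q), c' (Additive.ofMul γ) = c (Additive.ofMul (cD N q γ))) :
    c' = (fa2 N q hq).tr c := by
  refine (fa2 N q hq).eq_tr fun γ D => ?_
  rw [h γ, Fintype.sum_unique]
  congr 2
  apply coe_inj
  apply hcd_cancel hq
  rw [← cD_spec N q hq]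
  exact D.rel default

section fields

variable {N q : ℕ} [NeZero N] [NeZero (N * q)]

theorem a1_T (a1 : XN N → XN (N * q))
    (a1_apply : ∀ (c : XN N) (γ : Gamma0 (N * q)), (a1 c : Additive (Gamma0 (N * q)) →+ ℤ)
      (Additive.ofMul γ) = (c : Additive (Gamma0 N) →+ ℤ) (Additive.ofMul (cI N q γ)))
    (ℓ : ℕ) (hℓ : ℓ.Prime) (h : ¬ ℓ ∣ N) (h' : ¬ ℓ ∣ N * q) (c : XN N) :
    a1 (heckeX N hℓ h c) = heckeX (N * q) hℓ h' (a1 c) := by
  apply Subtype.ext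
  rw [eq_tr_a1 (a1_apply _), heckeX_eq_tr, heckeX_eq_tr, eq_tr_a1 (a1_apply c),
    tr_a1_T N q hℓ h h']

theorem a2_T (hq : 0 < q) (a2 : XN N → XN (N * q))
    (a2_apply : ∀ (c : XN N) (γ : Gamma0 (N * q)), (a2 c : Additive (Gamma0 (N * q)) →+ ℤ)
      (Additive.ofMul γ) = (c : Additive (Gamma0 N) →+ ℤ) (Additive.ofMul (cD N q γ)))
    (ℓ : ℕ) (hℓ : ℓ.Prime) (h : ¬ ℓ ∣ N) (h' : ¬ ℓ ∣ N * q) (c : XN N) :
    a2 (heckeX N hℓ h c) = heckeX (N * q) hℓ h' (a2 c) := by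
  apply Subtype.ext
  rw [eq_tr_a2 hq (a2_apply _), heckeX_eq_tr, heckeX_eq_tr, eq_tr_a2 hq (a2_apply c),
    tr_a2_T N q hq hℓ h h']

theorem b1_T (hq : q.Prime) (hqN : ¬ q ∣ N) (b1 : XN (N * q) → XN N)
    (b1_tr : ∀ y : XN (N * q), IsTr (Gamma0 (N * q)) (Gamma0 N) (famB1 N q)
      (y : Additive (Gamma0 (N * q)) →+ ℤ) (b1 y : Additive (Gamma0 N) →+ ℤ))
    (ℓ : ℕ) (hℓ : ℓ.Prime) (h : ¬ ℓ ∣ N) (h' : ¬ ℓ ∣ N * q) (y : XN (N * q)) :
    b1 (heckeX (N * q) hℓ h' y) = heckeX N hℓ h (b1 y) := by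
  apply Subtype.ext
  rw [(fb1 N q hq hqN).eq_tr (b1_tr _), heckeX_eq_tr, heckeX_eq_tr,
    (fb1 N q hq hqN).eq_tr (b1_tr y), tr_b1_T N q hq hqN hℓ h h']

theorem b2_T (hq : q.Prime) (hqN : ¬ q ∣ N) (b2 : XN (N * q) → XN N)
    (b2_tr : ∀ y : XN (N * q), IsTr (Gamma0 (N * q)) (Gamma0 N) (famB2 N q)
      (y : Additive (Gamma0 (N * q)) →+ ℤ) (b2 y : Additive (Gamma0 N) →+ ℤ))
    (ℓ : ℕ) (hℓ : ℓ.Prime) (h : ¬ ℓ ∣ N) (h' : ¬ ℓ ∣ N * q) (y : XN (N * q)) :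
    b2 (heckeX (N * q) hℓ h' y) = heckeX N hℓ h (b2 y) := by
  apply Subtype.ext
  rw [(fb2 N q hq hqN).eq_tr (b2_tr _), heckeX_eq_tr, heckeX_eq_tr,
    (fb2 N q hq hqN).eq_tr (b2_tr y), tr_b2_T N q hq hqN hℓ h h']

end fields

end Fermat.Agent.S41.Hecke.Z2
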