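import Fermat.Agent.S41.Hecke.Fam
import Fermat.Agent.S41.Hecke.Z2H

/-!
# S41 / HECKE : (Z2) for `al1`, `al2`    key [S41/H-Z2a]

`rw [IsFam.tr_comp, IsFam.tr_comp]`, then `IsFam.tr_congr` / `IsFam.tr_eq_of_red` (`m = n = 1`; `Fintype.card_prod`, `mul_comm`).
`a1_T` : families `(i,u) ↦ matT ℓ i * 1` and `(u,i) ↦ 1 * matT ℓ i`: `tr_congr` with `e = Equiv.prodComm _ _`, `ε = 1`.
`a2_T` : LHS family `(i,u) ↦ matT ℓ i * matD q`, RHS family `(u,i) ↦ matD q * matT ℓ i`, groups `(A, C)`.  `tr_eq_of_red` with `A' = LHS`: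
  red: cancel `matD q` on the right (`mat_cancel_right`), `matT_red`.   existence: `i = none`: `matD ℓ * matD q = 1 * (matD q * matD ℓ)`;
  `i = some j`: `[[q, j],[0,ℓ]] = [[1,t],[0,1]] * [[q, q j'],[0,ℓ]]` with `j - j' q = ℓ t` (`exists_fin_congr hℓ q j`, `ℓ ∤ q` because `ℓ ∤ N q`); `ε = mkG0 N 1 t 0 1`.
-/

set_option autoImplicit false

open CongruenceSubgroup ModularCurve.Period Fermat.Agent.S16.Lower Fermat.Agent.S29
open Fermat.Agent.S16.Lower.LDataAux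
open scoped MatrixGroups

noncomputable section

namespace Fermat.Agent.S41.Hecke

variable {N q : ℕ} {R : Type} [AddCommGroup R]

/-- [S41/H-Z2a] -/
theorem a1_T {ℓ : ℕ} (hℓ : ℓ.Prime) (h : ¬ ℓ ∣ N) (h' : ¬ ℓ ∣ N * q)
    (c : Additive (Gamma0 N) →+ R) :
    (isFam_a1 N q).tr ((isFam_T N hℓ h).tr c) = (isFam_T (N * q) hℓ h').tr ((isFam_a1 N q).tr c) :=
  Z2.tr_a1_T N q hℓ h h' c

/-- [S41/H-Z2a] -/
theorem a2_T (hq : 0 < q) {ℓ : ℕ} (hℓ : ℓ.Prime) (h : ¬ ℓ ∣ N) (h' : ¬ ℓ ∣ N * q)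
    (c : Additive (Gamma0 N) →+ R) :
    (isFam_a2 N q hq).tr ((isFam_T N hℓ h).tr c) =
      (isFam_T (N * q) hℓ h').tr ((isFam_a2 N q hq).tr c) :=
  Z2.tr_a2_T N q hq hℓ h h' c

end Fermat.Agent.S41.Hecke
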