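import Fermat.Agent.S41.Hecke.Fam
import Fermat.Agent.S41.Hecke.Opt

/-!
# S41 / HECKE : (Z3), `al1 be1 = 1 + R0`, `al2 be2 = 1 + R1`    key [S41/H-Z3a]   (~150 lines)

`C = Γ₀(Nq)`.  `R0 = tr{r_j : j < q}`, `R1 = tr{s_j : j < q}`, `s_j = D' r'_j D = [[q(1+Nj), 1],[q²Nj, q]]`, both from `C` to `C`.
`isFam_C1` : `((isFam_b1 ..).comp (isFam_a1 N q)).of_equiv (Equiv.prodPUnit _).symm 1 ..` (`famB1 i = 1 * (famB1 i * 1)`), likewise `isFam_C2`.
`isFam_R0`, `isFam_R1` : `IsFam.of_option` (`red_b1`; reducedness of `i ↦ famB2 N q i * matD q` : `mat_cancel_right`, `red_b2`).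
`a1b1`, `a2b2` : `tr_comp`, `tr_congr` to `isFam_C1`/`isFam_C2`, `IsFam.tr_option`;  the `none` part: `famB1 N q none = 1` (`rfl`), `tr_const Unit le_rfl`, `resHom le_rfl y = y`;
  `famB2 N q none * matD q = q • 1` (`hswap_matU_mul_matD`): `tr_congr` with `m = 1`, `n = q`.
-/

set_option autoImplicit false

open CongruenceSubgroup ModularCurve.Period Fermat.Agent.S16.Lower Fermat.Agent.S29
open Fermat.Agent.S16.Lower.LDataAux
open scoped MatrixGroups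

noncomputable section

namespace Fermat.Agent.S41.Hecke

variable {N q : ℕ} {R : Type} [AddCommGroup R]

/-- `r_j`, `j < q` -/
def famR0 (N q : ℕ) : Fin q → M2 := fun j => famB1 N q (some j)

/-- `s_j = D' r'_j D`, `j < q` -/
def famR1 (N q : ℕ) : Fin q → M2 := fun j => famB2 N q (some j) * matD q

theorem z3a_famB1_none (N q : ℕ) : famB1 N q none = 1 := rfl

theorem z3a_famB2_none (N q : ℕ) : famB2 N q none * matD q = (q : ℤ) • (1 : M2) := by
  have h : famB2 N q none = matU q 0 := by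
    show matU q 0 * (((1 : SL(2, ℤ)) : SL(2, ℤ)) : M2) = matU q 0
    rw [Matrix.SpecialLinearGroup.coe_one, Matrix.mul_one]
  rw [h, hswap_matU_mul_matD]

theorem z3a_h0 (N q : ℕ) :
    IsFam (Gamma0 (N * q)) (Gamma0 (N * q)) (fun _ : Unit => famB1 N q none) :=
  isFam_const Unit le_rfl

theorem z3a_resHom_self {Γ : Subgroup SL(2, ℤ)} (y : Additive Γ →+ R) :
    resHom (le_refl Γ) y = y := by
  ext γ
  rfl

theorem z3a_h0_tr (N q : ℕ) (y : Additive (Gamma0 (N * q)) →+ R) : (z3a_h0 N q).tr y = y := by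
  have h := tr_const Unit (le_refl (Gamma0 (N * q))) y
  rw [Fintype.card_unit, one_smul, z3a_resHom_self] at h
  exact h

theorem z3a_h1 (N : ℕ) {q : ℕ} (hq : 0 < q) :
    IsFam (Gamma0 (N * q)) (Gamma0 (N * q)) (fun _ : Unit => famB2 N q none * matD q) := by
  refine (isFam_const Unit (le_refl (Gamma0 (N * q)))).of_equiv (Equiv.refl _) 1
    (m := 1) (n := (q : ℤ)) one_ne_zero (by exact_mod_cast hq.ne') fun _ => ?_
  show (1 : ℤ) • (famB2 N q none * matD q) =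
    (q : ℤ) • ((((1 : Gamma0 (N * q)) : SL(2, ℤ)) : M2) * 1)
  rw [coe_one', Matrix.one_mul, one_smul, z3a_famB2_none]

theorem z3a_h1_tr (N : ℕ) {q : ℕ} (hq : 0 < q) (y : Additive (Gamma0 (N * q)) →+ R) :
    (z3a_h1 N hq).tr y = y := by
  have h := tr_const Unit (le_refl (Gamma0 (N * q))) y
  rw [Fintype.card_unit, one_smul, z3a_resHom_self] at h
  refine Eq.trans ?_ h
  refine IsFam.tr_congr (isFam_const Unit (le_refl (Gamma0 (N * q)))) (z3a_h1 N hq)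
    (Equiv.refl _) 1 (m := 1) (n := (q : ℤ)) one_ne_zero (fun _ => ?_) y
  show (1 : ℤ) • (famB2 N q none * matD q) =
    (q : ℤ) • ((((1 : Gamma0 (N * q)) : SL(2, ℤ)) : M2) * 1)
  rw [coe_one', Matrix.one_mul, one_smul, z3a_famB2_none]

theorem z3a_red2 (hq : q.Prime) (hqN : ¬ q ∣ N) (ε : Gamma0 (N * q)) (i j : Option (Fin q))
    (h : famB2 N q i * matD q = ((ε : SL(2, ℤ)) : M2) * (famB2 N q j * matD q)) : i = j := by
  apply red_b2 hq hqN ε
  rw [← Matrix.mul_assoc] at h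
  refine mat_cancel_right ?_ h
  rw [det_matD]
  exact_mod_cast hq.ne_zero

/-- [S41/H-Z3a] `famB1` as a family from `C` to `C` -/
theorem isFam_C1 (hq : q.Prime) (hqN : ¬ q ∣ N) :
    IsFam (Gamma0 (N * q)) (Gamma0 (N * q)) (famB1 N q) := by
  refine ((isFam_b1 hq hqN).comp (isFam_a1 N q)).of_equiv (Equiv.prodPUnit _).symm 1
    (m := 1) (n := 1) one_ne_zero one_ne_zero fun i => ?_
  show (1 : ℤ) • famB1 N q i = (1 : ℤ) • ((((1 : Gamma0 (N * q)) : SL(2, ℤ)) : M2) *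
    (famB1 N q i * 1))
  rw [coe_one', Matrix.one_mul, Matrix.mul_one]

/-- [S41/H-Z3a] -/
theorem isFam_C2 (hq : q.Prime) (hqN : ¬ q ∣ N) :
    IsFam (Gamma0 (N * q)) (Gamma0 (N * q)) (fun i => famB2 N q i * matD q) := by
  refine ((isFam_b2 hq hqN).comp (isFam_a2 N q hq.pos)).of_equiv (Equiv.prodPUnit _).symm 1
    (m := 1) (n := 1) one_ne_zero one_ne_zero fun i => ?_
  show (1 : ℤ) • (famB2 N q i * matD q) = (1 : ℤ) • ((((1 : Gamma0 (N * q)) : SL(2, ℤ)) : M2) *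
    (famB2 N q i * matD q))
  rw [coe_one', Matrix.one_mul]

/-- [S41/H-Z3a] -/
theorem isFam_R0 (hq : q.Prime) (hqN : ¬ q ∣ N) :
    IsFam (Gamma0 (N * q)) (Gamma0 (N * q)) (famR0 N q) := by
  exact IsFam.of_option (isFam_C1 hq hqN) (z3a_h0 N q) (red_b1 hq hqN)

/-- [S41/H-Z3a] -/
theorem isFam_R1 (hq : q.Prime) (hqN : ¬ q ∣ N) :
    IsFam (Gamma0 (N * q)) (Gamma0 (N * q)) (famR1 N q) := by
  exact IsFam.of_option (isFam_C2 hq hqN) (z3a_h1 N hq.pos) (z3a_red2 hq hqN)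

/-- [S41/H-Z3a] -/
theorem a1b1 (hq : q.Prime) (hqN : ¬ q ∣ N) (y : Additive (Gamma0 (N * q)) →+ R) :
    (isFam_a1 N q).tr ((isFam_b1 hq hqN).tr y) = y + (isFam_R0 hq hqN).tr y := by
  rw [IsFam.tr_comp]
  have h1 : (isFam_C1 hq hqN).tr y = ((isFam_b1 hq hqN).comp (isFam_a1 N q)).tr y := by
    refine IsFam.tr_congr _ _ (Equiv.prodPUnit _).symm 1 (m := 1) (n := 1) one_ne_zero
      (fun i => ?_) y
    show (1 : ℤ) • famB1 N q i = (1 : ℤ) • ((((1 : Gamma0 (N * q)) : SL(2, ℤ)) : M2) *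
      (famB1 N q i * 1))
    rw [coe_one', Matrix.one_mul, Matrix.mul_one]
  rw [← h1, IsFam.tr_option (isFam_C1 hq hqN) (z3a_h0 N q) (isFam_R0 hq hqN) y, z3a_h0_tr]
  rfl

/-- [S41/H-Z3a] -/
theorem a2b2 (hq : q.Prime) (hqN : ¬ q ∣ N) (y : Additive (Gamma0 (N * q)) →+ R) :
    (isFam_a2 N q hq.pos).tr ((isFam_b2 hq hqN).tr y) = y + (isFam_R1 hq hqN).tr y := by
  rw [IsFam.tr_comp]
  have h1 : (isFam_C2 hq hqN).tr y = ((isFam_b2 hq hqN).comp (isFam_a2 N q hq.pos)).tr y := by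
    refine IsFam.tr_congr _ _ (Equiv.prodPUnit _).symm 1 (m := 1) (n := 1) one_ne_zero
      (fun i => ?_) y
    show (1 : ℤ) • (famB2 N q i * matD q) = (1 : ℤ) • ((((1 : Gamma0 (N * q)) : SL(2, ℤ)) : M2) *
      (famB2 N q i * matD q))
    rw [coe_one', Matrix.one_mul]
  rw [← h1, IsFam.tr_option (isFam_C2 hq hqN) (z3a_h1 N hq.pos) (isFam_R1 hq hqN) y,
    z3a_h1_tr N hq.pos]
  rfl

end Fermat.Agent.S41.Hecke
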