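import Fermat.Agent.S41.Hecke.Z3a

/-!
# S41 / HECKE : (Z3), `R0 ∘ R1 = U_q ∘ U_q`    key [S41/H-Z3b]   (helper12)

`rw [tr_comp, tr_comp]`, `tr_eq_of_red` with `A' = (j,i) ↦ famR1 j * famR0 i`, `A = (a,b) ↦ matUF q a * matUF q b`, `m = n = 1`.
existence: `M = s_j r_i` has `det M = q²`, `M 0 0 = q(1+Nj) + N` (not divisible by `q`), `M 1 0 = q N (q j + 1)`.  `peel hq M` : `M = X * matU q b`, `X 0 0 = M 0 0`, `X 1 0 = M 1 0`, `det X = q`;
  `complete_U hq (N*q) X` : `X = ε * matU q a`.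
red: `s_j r_i = ε * (s_j' r_i')`, `ε ∈ C`.  Mod `q`: top row of `s_j r_i` `≡ (N, N i + 1)`, bottom row `≡ 0`; so `(N, N i + 1) ≡ ε 0 0 (N, N i' + 1)`, `q ∣ N (N i' + 1) - (N i + 1) N`.
  Cancel `r_i`, then `matD q`, `red_b2`.
-/

set_option autoImplicit false

open CongruenceSubgroup ModularCurve.Period Fermat.Agent.S16.Lower Fermat.Agent.S29
open Fermat.Agent.S16.Lower.LDataAux
open scoped MatrixGroups

noncomputable section

namespace Fermat.Agent.S41.Hecke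

variable {N q : ℕ} {R : Type} [AddCommGroup R]

theorem famR0_eq (N q : ℕ) (i : Fin q) :
    famR0 N q i = !![1, ((i : ℕ) : ℤ); (N : ℤ), N * ((i : ℕ) : ℤ) + 1] :=
  hrep_rA_some N q i

theorem famR1_eq (N q : ℕ) (j : Fin q) :
    famR1 N q j = !![(q : ℤ) * (1 + N * ((j : ℕ) : ℤ)), 1; (q : ℤ) * (q * (N * ((j : ℕ) : ℤ))), q] := by
  rw [famR1, famB2, hrep_rB_some, hcd_mul_matD, matU]
  ext a b
  fin_cases a <;> fin_cases b <;> simp [Matrix.mul_apply, Fin.sum_univ_two]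

theorem famR1_mul_famR0 (N q : ℕ) (j i : Fin q) :
    famR1 N q j * famR0 N q i =
      !![(q : ℤ) * (1 + N * ((j : ℕ) : ℤ)) + N,
         (q : ℤ) * (1 + N * ((j : ℕ) : ℤ)) * ((i : ℕ) : ℤ) + (N * ((i : ℕ) : ℤ) + 1);
         (q : ℤ) * (q * (N * ((j : ℕ) : ℤ))) + q * N,
         (q : ℤ) * (q * (N * ((j : ℕ) : ℤ))) * ((i : ℕ) : ℤ) + q * (N * ((i : ℕ) : ℤ) + 1)] := by
  rw [famR1_eq, famR0_eq]
  ext a b
  fin_cases a <;> fin_cases b <;> simp [Matrix.mul_apply, Fin.sum_univ_two]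

theorem det_famR0 (i : Fin q) : (famR0 N q i).det = 1 := det_famB1 _

theorem det_famR1 (j : Fin q) : (famR1 N q j).det = (q : ℤ) * q := by
  rw [famR1, Matrix.det_mul, det_famB2, det_matD]

theorem R0R1_ex (hq : q.Prime) (hqN : ¬ q ∣ N) (j i : Fin q) :
    ∃ (x : Fin q × Fin q) (ε : Gamma0 (N * q)), famR1 N q j * famR0 N q i =
      ((ε : SL(2, ℤ)) : M2) * (matUF q x.1 * matUF q x.2) := by
  have hq0 : (q : ℤ) ≠ 0 := by exact_mod_cast hq.ne_zero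
  set M : M2 := famR1 N q j * famR0 N q i with hM
  have hdet : M.det = (q : ℤ) * q := by
    rw [hM, Matrix.det_mul, det_famR0, det_famR1, mul_one]
  have h00e : M 0 0 = (q : ℤ) * (1 + N * ((j : ℕ) : ℤ)) + N := by
    rw [hM, famR1_mul_famR0]; rfl
  have h10e : M 1 0 = (q : ℤ) * (q * (N * ((j : ℕ) : ℤ))) + q * N := by
    rw [hM, famR1_mul_famR0]; rfl
  have h00 : ¬ (q : ℤ) ∣ M 0 0 := by
    rw [h00e]
    intro h
    have h1 : (q : ℤ) ∣ (N : ℤ) := (Int.dvd_add_right (Dvd.intro _ rfl)).1 h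
    exact hqN (Int.natCast_dvd_natCast.mp h1)
  have h10 : ((N * q : ℕ) : ℤ) ∣ M 1 0 := by
    rw [h10e]
    exact ⟨q * ((j : ℕ) : ℤ) + 1, by push_cast; ring⟩
  obtain ⟨b, X, hX, hX00, hX10⟩ := peel hq M (by rw [hdet]; exact Dvd.intro _ rfl) h00
  have hdX : X.det = q := by
    have h5 : M.det = (X * matU q b).det := congrArg Matrix.det hX
    rw [hdet, Matrix.det_mul, det_matU] at h5
    exact (mul_right_cancel₀ hq0 h5).symm
  obtain ⟨a, ε, hε⟩ := complete_U hq (N * q) X hdX (hX00 ▸ h00) (hX10 ▸ h10)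
  refine ⟨(a, b), ε, ?_⟩
  rw [hX, hε, Matrix.mul_assoc]
  rfl

theorem R0R1_red (hq : q.Prime) (hqN : ¬ q ∣ N) (ε : Gamma0 (N * q)) (x y : Fin q × Fin q)
    (h : famR1 N q x.1 * famR0 N q x.2 =
      ((ε : SL(2, ℤ)) : M2) * (famR1 N q y.1 * famR0 N q y.2)) : x = y := by
  obtain ⟨j, i⟩ := x
  obtain ⟨j', i'⟩ := y
  have hqZ : Prime (q : ℤ) := Nat.prime_iff_prime_int.mp hq
  have hqN' : ¬ (q : ℤ) ∣ (N : ℤ) := fun h => hqN (Int.natCast_dvd_natCast.mp h)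
  have hi : i = i' := by
    have h' := h
    simp only [] at h'
    rw [famR1_mul_famR0, famR1_mul_famR0, coe_eq (ε : SL(2, ℤ))] at h'
    have h00 := congrFun (congrFun h' 0) 0
    have h01 := congrFun (congrFun h' 0) 1
    simp [Matrix.mul_apply, Fin.sum_univ_two] at h00 h01
    have h1 : (q : ℤ) ∣ (N : ℤ) * (N * (((i' : ℕ) : ℤ) - ((i : ℕ) : ℤ))) := by
      refine ⟨((ε : SL(2, ℤ)) 0 0 * (1 + N * ((j' : ℕ) : ℤ)) +
        (ε : SL(2, ℤ)) 0 1 * (q * (N * ((j' : ℕ) : ℤ)) + N) - (1 + N * ((j : ℕ) : ℤ))) *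
          (N * ((i' : ℕ) : ℤ) + 1) -
        ((ε : SL(2, ℤ)) 0 0 * ((1 + N * ((j' : ℕ) : ℤ)) * ((i' : ℕ) : ℤ)) +
          (ε : SL(2, ℤ)) 0 1 * (q * (N * ((j' : ℕ) : ℤ)) * ((i' : ℕ) : ℤ) +
            (N * ((i' : ℕ) : ℤ) + 1)) - (1 + N * ((j : ℕ) : ℤ)) * ((i : ℕ) : ℤ)) * N, ?_⟩
      linear_combination (N * ((i' : ℕ) : ℤ) + 1) * h00 - (N : ℤ) * h01
    have h2 : (q : ℤ) ∣ ((i' : ℕ) : ℤ) - ((i : ℕ) : ℤ) :=
      ((hqZ.dvd_or_dvd ((hqZ.dvd_or_dvd h1).resolve_left hqN')).resolve_left hqN')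
    have hi1 := i.2
    have hi2 := i'.2
    have h3 : ((i' : ℕ) : ℤ) - ((i : ℕ) : ℤ) = 0 := by
      apply Int.eq_zero_of_abs_lt_dvd h2
      rw [abs_lt]
      constructor <;> omega
    apply Fin.ext
    omega
  subst hi
  have h1 : famR1 N q j = ((ε : SL(2, ℤ)) : M2) * famR1 N q j' := by
    apply mat_cancel_right (B := famR0 N q i) (by rw [det_famR0]; exact one_ne_zero)
    rw [Matrix.mul_assoc]
    exact h
  have h2 : famB2 N q (some j) = ((ε : SL(2, ℤ)) : M2) * famB2 N q (some j') := by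
    apply mat_cancel_right (B := matD q) (by rw [det_matD]; exact_mod_cast hq.ne_zero)
    rw [Matrix.mul_assoc]
    exact h1
  rw [Option.some.inj (red_b2 hq hqN ε _ _ h2)]

/-- [S41/H-Z3b] -/
theorem R0R1 (hq : q.Prime) (hqN : ¬ q ∣ N) (y : Additive (Gamma0 (N * q)) →+ R) :
    (isFam_R0 hq hqN).tr ((isFam_R1 hq hqN).tr y) =
      (isFam_U (N * q) hq (Dvd.intro_left N rfl)).tr
        ((isFam_U (N * q) hq (Dvd.intro_left N rfl)).tr y) := by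
  rw [IsFam.tr_comp, IsFam.tr_comp]
  refine IsFam.tr_eq_of_red _ _ (R0R1_red hq hqN) rfl (m := 1) (n := 1) one_ne_zero
    (fun x => ?_) y
  obtain ⟨z, ε, h⟩ := R0R1_ex hq hqN x.1 x.2
  exact ⟨z, ε, by rw [one_smul, one_smul]; exact h⟩

end Fermat.Agent.S41.Hecke
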